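import Mathlib

/-!
# Case I of Fermat's Last Theorem for `p = 5, 7, 11, 13` (Sophie Germain)

Pure integer arithmetic.  `sophieGermain` is the general criterion with an auxiliary prime `q`;
`caseI` instantiates it with `q = 11, 29, 23, 53`.
-/

set_option autoImplicit false

namespace Fermat.Agent.FLTSmall

namespace CaseI

open Finset

/-- The cofactor `(x ^ p + y ^ p) / (x + y)`. -/
def cof (p : ℕ) (x y : ℤ) : ℤ := ∑ i ∈ range p, x ^ i * (-y) ^ (p - 1 - i)

theorem cof_mul {p : ℕ} (hp : Odd p) (x y : ℤ) : cof p x y * (x + y) = x ^ p + y ^ p := by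
  have h := geom_sum₂_mul x (-y) p
  rw [sub_neg_eq_add, Odd.neg_pow hp, sub_neg_eq_add] at h
  exact h

/-- In a commutative ring, if `a + b = 0` the cofactor sum collapses to `p * a ^ (p - 1)`. -/
theorem sum_eq_of_add_eq_zero {R : Type*} [CommRing R] (p : ℕ) {a b : R} (h : a + b = 0) :
    ∑ i ∈ range p, a ^ i * (-b) ^ (p - 1 - i) = (p : R) * a ^ (p - 1) := by
  have hb : -b = a := (eq_neg_of_add_eq_zero_left h).symm
  have hterm : ∀ i ∈ range p, a ^ i * (-b) ^ (p - 1 - i) = a ^ (p - 1) := by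
    intro i hi
    rw [hb, ← pow_add]
    congr 1
    have := mem_range.mp hi
    omega
  rw [sum_congr rfl hterm, sum_const, card_range, nsmul_eq_mul]

/-- In a commutative ring, if `a = 0` the cofactor sum collapses to `(-b) ^ (p - 1)`. -/
theorem sum_eq_of_eq_zero {R : Type*} [CommRing R] {p : ℕ} (hp : 0 < p) {a : R} (b : R)
    (h : a = 0) : ∑ i ∈ range p, a ^ i * (-b) ^ (p - 1 - i) = (-b) ^ (p - 1) := by
  rw [sum_eq_single 0]
  · simp
  · intro i _ hi
    rw [h, zero_pow hi, zero_mul]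
  · intro h0
    exact absurd (mem_range.mpr hp) h0

theorem cast_cof {R : Type*} [CommRing R] (p : ℕ) (x y : ℤ) :
    ((cof p x y : ℤ) : R) = ∑ i ∈ range p, (x : R) ^ i * (-(y : R)) ^ (p - 1 - i) := by
  simp [cof]

/-- `x + y` divides `cof p x y - p * x ^ (p - 1)`. -/
theorem add_dvd_cof_sub (p : ℕ) (x y : ℤ) : x + y ∣ cof p x y - p * x ^ (p - 1) := by
  rw [← Ideal.mem_span_singleton, ← Ideal.Quotient.eq_zero_iff_mem]
  have h0 : (Ideal.Quotient.mk (Ideal.span {x + y}) x) + (Ideal.Quotient.mk (Ideal.span {x + y}) y)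
      = 0 := by
    rw [← map_add, Ideal.Quotient.eq_zero_iff_mem]
    exact Ideal.mem_span_singleton_self _
  have h1 := sum_eq_of_add_eq_zero p h0
  rw [map_sub, sub_eq_zero, cof, map_sum]
  simp only [map_mul, map_pow, map_neg, map_natCast]
  exact h1

theorem isCoprime_add_cof {p : ℕ} (hp : p.Prime) {x y : ℤ} (hxy : IsCoprime x y)
    (hpxy : ¬ (p : ℤ) ∣ x + y) : IsCoprime (x + y) (cof p x y) := by
  have hpZ : Prime (p : ℤ) := Nat.prime_iff_prime_int.mp hp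
  refine isCoprime_of_prime_dvd ?_ ?_
  · rintro ⟨h0, -⟩
    exact hpxy (h0 ▸ dvd_zero _)
  · intro r hr hr1 hr2
    have h3 : r ∣ (p : ℤ) * x ^ (p - 1) := by
      have h4 := dvd_trans hr1 (add_dvd_cof_sub p x y)
      have h5 := dvd_sub hr2 h4
      rwa [sub_sub_cancel] at h5
    rcases hr.dvd_or_dvd h3 with h | h
    · -- `r ∣ p`, hence `p ∣ r ∣ x + y`
      have hass : Associated r (p : ℤ) := hr.associated_of_dvd hpZ h
      exact hpxy (hass.symm.dvd.trans hr1)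
    · have hrx : r ∣ x := hr.dvd_of_dvd_pow h
      have hry : r ∣ y := by
        have := dvd_sub hr1 hrx
        rwa [add_sub_cancel_left] at this
      exact hr.not_isUnit (hxy.isUnit_of_dvd' hrx hry)

/-- If `u ^ p + v ^ p + t ^ p = 0` with `u, v` coprime and `p ∤ t`, then `u + v` and its cofactor
are `p`-th powers. -/
theorem exists_pow_eq {p : ℕ} (hp : p.Prime) (hp2 : p ≠ 2) {u v t : ℤ} (huv : IsCoprime u v)
    (h : u ^ p + v ^ p + t ^ p = 0) (hpt : ¬ (p : ℤ) ∣ t) :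
    ∃ a α : ℤ, u + v = a ^ p ∧ cof p u v = α ^ p := by
  have hodd : Odd p := hp.odd_of_ne_two hp2
  have hpZ : Prime (p : ℤ) := Nat.prime_iff_prime_int.mp hp
  have hmul : (u + v) * cof p u v = (-t) ^ p := by
    rw [mul_comm, cof_mul hodd, Odd.neg_pow hodd]
    linarith
  have hpuv : ¬ (p : ℤ) ∣ u + v := by
    intro hdvd
    have h1 : (p : ℤ) ∣ (-t) ^ p := hmul ▸ Dvd.dvd.mul_right hdvd _
    have h2 := hpZ.dvd_of_dvd_pow h1
    exact hpt ((dvd_neg).mp h2)
  have hcop := isCoprime_add_cof hp huv hpuv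
  obtain ⟨a, ha⟩ := Int.eq_pow_of_mul_eq_pow_odd_left hcop hodd hmul
  obtain ⟨α, hα⟩ := Int.eq_pow_of_mul_eq_pow_odd_right hcop hodd hmul
  exact ⟨a, α, ha, hα⟩

/-- The core of Sophie Germain's argument: the auxiliary prime `q` cannot divide `x`. -/
theorem core {p q : ℕ} (hp : p.Prime) (hp2 : p ≠ 2) [Fact q.Prime]
    (h1 : ∀ a b c : ZMod q, a ^ p + b ^ p + c ^ p = 0 → a * b * c = 0)
    (h2 : ∀ a : ZMod q, a ^ p ≠ (p : ZMod q))
    {x y w : ℤ} (hxy : IsCoprime x y) (hyw : IsCoprime y w) (hwx : IsCoprime w x)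
    (hpx : ¬ (p : ℤ) ∣ x) (hpy : ¬ (p : ℤ) ∣ y) (hpw : ¬ (p : ℤ) ∣ w)
    (h : x ^ p + y ^ p + w ^ p = 0) (hqx : (q : ℤ) ∣ x) : False := by
  have hq : q.Prime := Fact.out
  have hodd : Odd p := hp.odd_of_ne_two hp2
  have hp0 : p ≠ 0 := hp.ne_zero
  have hqZ : Prime (q : ℤ) := Nat.prime_iff_prime_int.mp hq
  obtain ⟨a, α, ha, hα⟩ := exists_pow_eq hp hp2 hyw (by linarith : y ^ p + w ^ p + x ^ p = 0) hpx
  obtain ⟨b, -, hb, -⟩ := exists_pow_eq hp hp2 hwx (by linarith : w ^ p + x ^ p + y ^ p = 0) hpy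
  obtain ⟨c, γ, hc, hγ⟩ := exists_pow_eq hp hp2 hxy h hpw
  have hx0 : ((x : ℤ) : ZMod q) = 0 := (ZMod.intCast_zmod_eq_zero_iff_dvd x q).mpr hqx
  -- `q ∤ y` and `q ∤ w`
  have hy0 : ((y : ℤ) : ZMod q) ≠ 0 := by
    intro hy
    have hqy : (q : ℤ) ∣ y := (ZMod.intCast_zmod_eq_zero_iff_dvd y q).mp hy
    exact hqZ.not_isUnit (hxy.isUnit_of_dvd' hqx hqy)
  have hw0 : ((w : ℤ) : ZMod q) ≠ 0 := by
    intro hw
    have hqw : (q : ℤ) ∣ w := (ZMod.intCast_zmod_eq_zero_iff_dvd w q).mp hw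
    exact hqZ.not_isUnit (hwx.isUnit_of_dvd' hqw hqx)
  -- `b ^ p + c ^ p + (-a) ^ p = 2 x ≡ 0`
  have hsum : ((b : ℤ) : ZMod q) ^ p + ((c : ℤ) : ZMod q) ^ p + (-((a : ℤ) : ZMod q)) ^ p = 0 := by
    have hZ : b ^ p + c ^ p + (-a) ^ p = 2 * x := by
      rw [Odd.neg_pow hodd, ← ha, ← hb, ← hc]; ring
    have := congrArg (Int.cast : ℤ → ZMod q) hZ
    push_cast at this
    rw [this, hx0, mul_zero]
  have h3 := h1 _ _ _ hsum
  have hb' : ((w : ℤ) : ZMod q) = ((b : ℤ) : ZMod q) ^ p := by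
    have := congrArg (Int.cast : ℤ → ZMod q) hb
    push_cast at this
    rwa [hx0, add_zero] at this
  have hc' : ((y : ℤ) : ZMod q) = ((c : ℤ) : ZMod q) ^ p := by
    have := congrArg (Int.cast : ℤ → ZMod q) hc
    push_cast at this
    rwa [hx0, zero_add] at this
  have ha' : ((y : ℤ) : ZMod q) + ((w : ℤ) : ZMod q) = ((a : ℤ) : ZMod q) ^ p := by
    have := congrArg (Int.cast : ℤ → ZMod q) ha
    push_cast at this
    exact this
  have ha0 : ((a : ℤ) : ZMod q) = 0 := by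
    rcases mul_eq_zero.mp h3 with h4 | h4
    · rcases mul_eq_zero.mp h4 with h5 | h5
      · exact absurd (by rw [hb', h5, zero_pow hp0]) hw0
      · exact absurd (by rw [hc', h5, zero_pow hp0]) hy0
    · exact neg_eq_zero.mp h4
  have hyw0 : ((y : ℤ) : ZMod q) + ((w : ℤ) : ZMod q) = 0 := by
    rw [ha', ha0, zero_pow hp0]
  -- the two cofactors modulo `q`
  have hα' : ((α : ℤ) : ZMod q) ^ p = (p : ZMod q) * ((y : ℤ) : ZMod q) ^ (p - 1) := by
    have := congrArg (Int.cast : ℤ → ZMod q) hα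
    rw [cast_cof, sum_eq_of_add_eq_zero p hyw0] at this
    push_cast at this
    exact this.symm
  have hγ' : ((γ : ℤ) : ZMod q) ^ p = ((y : ℤ) : ZMod q) ^ (p - 1) := by
    have := congrArg (Int.cast : ℤ → ZMod q) hγ
    rw [cast_cof, sum_eq_of_eq_zero hp.pos _ hx0] at this
    push_cast at this
    rw [← this]
    exact Even.neg_pow (hp.even_sub_one hp2) _
  have hypow : ((y : ℤ) : ZMod q) ^ (p - 1) ≠ 0 := pow_ne_zero _ hy0
  refine h2 (((α : ℤ) : ZMod q) * (((γ : ℤ) : ZMod q))⁻¹) ?_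
  rw [mul_pow, inv_pow, hα', hγ', mul_inv_cancel_right₀ hypow]

end CaseI

open CaseI in
/-- **Sophie Germain's theorem** (first case of Fermat's Last Theorem with an auxiliary prime). -/
theorem sophieGermain {p q : ℕ} (hp : p.Prime) (hp2 : p ≠ 2) (hq : q.Prime)
    (h1 : ∀ a b c : ZMod q, a ^ p + b ^ p + c ^ p = 0 → a * b * c = 0)
    (h2 : ∀ a : ZMod q, a ^ p ≠ (p : ZMod q))
    (x y z : ℤ) (hxy : IsCoprime x y) (hpxyz : ¬ (p : ℤ) ∣ x * y * z) :
    x ^ p + y ^ p ≠ z ^ p := by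
  intro h
  have : Fact q.Prime := ⟨hq⟩
  have hodd : Odd p := hp.odd_of_ne_two hp2
  have hqZ : Prime (q : ℤ) := Nat.prime_iff_prime_int.mp hq
  have hpx : ¬ (p : ℤ) ∣ x := fun hd => hpxyz ((hd.mul_right y).mul_right z)
  have hpy : ¬ (p : ℤ) ∣ y := fun hd => hpxyz ((hd.mul_left x).mul_right z)
  have hpw : ¬ (p : ℤ) ∣ -z := fun hd => hpxyz ((dvd_neg.mp hd).mul_left (x * y))
  have h0 : x ^ p + y ^ p + (-z) ^ p = 0 := by
    rw [Odd.neg_pow hodd, h]; ring
  have hyw : IsCoprime y (-z) := by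
    have h3 : IsCoprime y ((-z) ^ p) := by
      have h4 : (-z) ^ p = -(x ^ p) + y * (-(y ^ (p - 1))) := by
        have h5 : y ^ p = y * y ^ (p - 1) := by
          rw [← pow_succ', Nat.sub_add_cancel hp.one_le]
        linear_combination h0 - h5
      rw [h4]
      exact IsCoprime.add_mul_left_right (hxy.symm.pow_right.neg_right) _
    exact (IsCoprime.pow_right_iff hp.pos).mp h3
  have hwx : IsCoprime (-z) x := by
    have h3 : IsCoprime x ((-z) ^ p) := by
      have h4 : (-z) ^ p = -(y ^ p) + x * (-(x ^ (p - 1))) := by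
        have h5 : x ^ p = x * x ^ (p - 1) := by
          rw [← pow_succ', Nat.sub_add_cancel hp.one_le]
        linear_combination h0 - h5
      rw [h4]
      exact IsCoprime.add_mul_left_right (hxy.pow_right.neg_right) _
    exact ((IsCoprime.pow_right_iff hp.pos).mp h3).symm
  have hprod : ((x : ℤ) : ZMod q) * ((y : ℤ) : ZMod q) * (((-z : ℤ)) : ZMod q) = 0 := by
    apply h1
    have := congrArg (Int.cast : ℤ → ZMod q) h0
    push_cast at this
    push_cast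
    exact this
  rcases mul_eq_zero.mp hprod with h3 | h3
  · rcases mul_eq_zero.mp h3 with h4 | h4
    · exact core hp hp2 h1 h2 hxy hyw hwx hpx hpy hpw h0
        ((ZMod.intCast_zmod_eq_zero_iff_dvd x q).mp h4)
    · exact core hp hp2 h1 h2 hyw hwx hxy hpy hpw hpx (by linarith)
        ((ZMod.intCast_zmod_eq_zero_iff_dvd y q).mp h4)
  · exact core hp hp2 h1 h2 hwx hxy hyw hpw hpx hpy (by linarith)
      ((ZMod.intCast_zmod_eq_zero_iff_dvd (-z) q).mp h3)


namespace CaseI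

/-- Reduce the first Sophie Germain condition to the (small) set of `p`-th power residues. -/
theorem h1_of_residues {p q : ℕ} [Fact q.Prime] (hp0 : p ≠ 0) (R : Finset (ZMod q))
    (hR : ∀ a : ZMod q, a ^ p = 0 ∨ a ^ p ∈ R)
    (hsum : ∀ r ∈ R, ∀ s ∈ R, ∀ t ∈ R, r + s + t ≠ 0) :
    ∀ a b c : ZMod q, a ^ p + b ^ p + c ^ p = 0 → a * b * c = 0 := by
  intro a b c h
  rcases hR a with ha | ha
  · rw [pow_eq_zero_iff hp0] at ha
    rw [ha, zero_mul, zero_mul]
  rcases hR b with hb | hb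
  · rw [pow_eq_zero_iff hp0] at hb
    rw [hb, mul_zero, zero_mul]
  rcases hR c with hc | hc
  · rw [pow_eq_zero_iff hp0] at hc
    rw [hc, mul_zero]
  exact absurd h (hsum _ ha _ hb _ hc)

set_option maxRecDepth 100000 in
theorem h1_five : ∀ a b c : ZMod 11, a ^ 5 + b ^ 5 + c ^ 5 = 0 → a * b * c = 0 := by
  have hR : ∀ a : ZMod 11, a ^ 5 = 0 ∨ a ^ 5 ∈ ({1, 10} : Finset (ZMod 11)) := by decide
  have hsum : ∀ r ∈ ({1, 10} : Finset (ZMod 11)), ∀ s ∈ ({1, 10} : Finset (ZMod 11)),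
      ∀ t ∈ ({1, 10} : Finset (ZMod 11)), r + s + t ≠ 0 := by decide
  have : Fact (Nat.Prime 11) := ⟨by norm_num⟩
  exact h1_of_residues (by norm_num) _ hR hsum

set_option maxRecDepth 100000 in
theorem h2_five : ∀ a : ZMod 11, a ^ 5 ≠ ((5 : ℕ) : ZMod 11) := by decide

set_option maxRecDepth 100000 in
theorem h1_seven : ∀ a b c : ZMod 29, a ^ 7 + b ^ 7 + c ^ 7 = 0 → a * b * c = 0 := by
  have hR : ∀ a : ZMod 29, a ^ 7 = 0 ∨ a ^ 7 ∈ ({1, 28, 12, 17} : Finset (ZMod 29)) := by decide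
  have hsum : ∀ r ∈ ({1, 28, 12, 17} : Finset (ZMod 29)), ∀ s ∈ ({1, 28, 12, 17} : Finset (ZMod 29)),
      ∀ t ∈ ({1, 28, 12, 17} : Finset (ZMod 29)), r + s + t ≠ 0 := by decide
  have : Fact (Nat.Prime 29) := ⟨by norm_num⟩
  exact h1_of_residues (by norm_num) _ hR hsum

set_option maxRecDepth 100000 in
theorem h2_seven : ∀ a : ZMod 29, a ^ 7 ≠ ((7 : ℕ) : ZMod 29) := by decide

set_option maxRecDepth 100000 in
theorem h1_eleven : ∀ a b c : ZMod 23, a ^ 11 + b ^ 11 + c ^ 11 = 0 → a * b * c = 0 := by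
  have hR : ∀ a : ZMod 23, a ^ 11 = 0 ∨ a ^ 11 ∈ ({1, 22} : Finset (ZMod 23)) := by decide
  have hsum : ∀ r ∈ ({1, 22} : Finset (ZMod 23)), ∀ s ∈ ({1, 22} : Finset (ZMod 23)),
      ∀ t ∈ ({1, 22} : Finset (ZMod 23)), r + s + t ≠ 0 := by decide
  have : Fact (Nat.Prime 23) := ⟨by norm_num⟩
  exact h1_of_residues (by norm_num) _ hR hsum

set_option maxRecDepth 100000 in
theorem h2_eleven : ∀ a : ZMod 23, a ^ 11 ≠ ((11 : ℕ) : ZMod 23) := by decide

set_option maxRecDepth 100000 in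
theorem h1_thirteen : ∀ a b c : ZMod 53, a ^ 13 + b ^ 13 + c ^ 13 = 0 → a * b * c = 0 := by
  have hR : ∀ a : ZMod 53, a ^ 13 = 0 ∨ a ^ 13 ∈ ({1, 52, 23, 30} : Finset (ZMod 53)) := by decide
  have hsum : ∀ r ∈ ({1, 52, 23, 30} : Finset (ZMod 53)), ∀ s ∈ ({1, 52, 23, 30} : Finset (ZMod 53)),
      ∀ t ∈ ({1, 52, 23, 30} : Finset (ZMod 53)), r + s + t ≠ 0 := by decide
  have : Fact (Nat.Prime 53) := ⟨by norm_num⟩
  exact h1_of_residues (by norm_num) _ hR hsum

set_option maxRecDepth 100000 in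
theorem h2_thirteen : ∀ a : ZMod 53, a ^ 13 ≠ ((13 : ℕ) : ZMod 53) := by decide

end CaseI

/-- **Case I of Fermat's Last Theorem** for the exponents `5, 7, 11, 13`: no solution with
`p ∤ x y z`. -/
theorem caseI {p : ℕ} (hp : p = 5 ∨ p = 7 ∨ p = 11 ∨ p = 13) (x y z : ℤ) (hxy : IsCoprime x y)
    (hpxyz : ¬ (p : ℤ) ∣ x * y * z) : x ^ p + y ^ p ≠ z ^ p := by
  rcases hp with rfl | rfl | rfl | rfl
  · exact sophieGermain (q := 11) (by norm_num) (by norm_num) (by norm_num) CaseI.h1_five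
      CaseI.h2_five x y z hxy hpxyz
  · exact sophieGermain (q := 29) (by norm_num) (by norm_num) (by norm_num) CaseI.h1_seven
      CaseI.h2_seven x y z hxy hpxyz
  · exact sophieGermain (q := 23) (by norm_num) (by norm_num) (by norm_num) CaseI.h1_eleven
      CaseI.h2_eleven x y z hxy hpxyz
  · exact sophieGermain (q := 53) (by norm_num) (by norm_num) (by norm_num) CaseI.h1_thirteen
      CaseI.h2_thirteen x y z hxy hpxyz

end Fermat.Agent.FLTSmall
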