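import Mathlib

set_option autoImplicit false

open NumberField Polynomial Finset

namespace Fermat.Agent.FLTSmall

namespace CaseII

variable {p : ℕ} [hp : Fact p.Prime] {K : Type*} [Field K] [NumberField K]
  [IsCyclotomicExtension {p} ℚ K]

/-- `p`-th powers in the cyclotomic integers are congruent to rational integers mod `p`. -/
theorem exists_int_dvd_pow_sub (α : 𝓞 K) : ∃ n : ℤ, (p : 𝓞 K) ∣ α ^ p - n := by
  have hζ := IsCyclotomicExtension.zeta_spec p ℚ K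
  have htop := IsCyclotomicExtension.Rat.adjoin_singleton_eq_top hζ
  have hα : α ∈ Algebra.adjoin ℤ {hζ.toInteger} := by rw [htop]; trivial
  induction hα using Algebra.adjoin_induction with
  | mem x hx =>
    rw [Set.mem_singleton_iff] at hx; subst hx
    exact ⟨1, by rw [hζ.toInteger_isPrimitiveRoot.pow_eq_one]; simp⟩
  | algebraMap r => exact ⟨r ^ p, by simp⟩
  | add x y _ _ hx hy =>
    obtain ⟨a, ha⟩ := hx; obtain ⟨b, hb⟩ := hy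
    obtain ⟨r, hr⟩ := exists_add_pow_prime_eq hp.out x y
    refine ⟨a + b, ?_⟩
    rw [hr]
    have : x ^ p + y ^ p + ↑p * x * y * r - ((a + b : ℤ) : 𝓞 K)
        = (x ^ p - a) + (y ^ p - b) + p * (x * y * r) := by push_cast; ring
    rw [this]
    exact dvd_add (dvd_add ha hb) (dvd_mul_right _ _)
  | mul x y _ _ hx hy =>
    obtain ⟨a, ha⟩ := hx; obtain ⟨b, hb⟩ := hy
    refine ⟨a * b, ?_⟩
    have : (x * y) ^ p - ((a * b : ℤ) : 𝓞 K) = (x ^ p - a) * y ^ p + a * (y ^ p - b) := by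
      push_cast; ring
    rw [this]
    exact dvd_add (dvd_mul_of_dvd_left ha _) (dvd_mul_of_dvd_right hb _)

section descent

variable {ζ : K} (hζ : IsPrimitiveRoot ζ p)

omit [NumberField K] [IsCyclotomicExtension {p} ℚ K] in
/-- Distinct `p`-th roots of unity differ by a unit times `ζ - 1`. -/
theorem exists_unit_sub_eq {η₁ η₂ : 𝓞 K} (h₁ : η₁ ∈ nthRootsFinset p (1 : 𝓞 K))
    (h₂ : η₂ ∈ nthRootsFinset p (1 : 𝓞 K)) (hne : η₁ ≠ η₂) :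
    ∃ u : (𝓞 K)ˣ, η₁ - η₂ = (hζ.toInteger - 1) * u := by
  obtain ⟨u, hu⟩ := hζ.toInteger_isPrimitiveRoot.nthRootsFinset_pairwise_associated_sub_one_sub_of_prime
    hp.out h₁ h₂ hne
  exact ⟨u, hu.symm⟩

/-- All the factors `ω + η θ` are divisible by `ζ - 1` as soon as their product is. -/
theorem dvd_add_mul_of_dvd (hp2 : p ≠ 2) {ω θ : 𝓞 K}
    (h : (hζ.toInteger - 1) ∣ ω ^ p + θ ^ p) {η : 𝓞 K} (hη : η ∈ nthRootsFinset p (1 : 𝓞 K)) :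
    (hζ.toInteger - 1) ∣ ω + η * θ := by
  have hodd : Odd p := hp.out.odd_of_ne_two hp2
  rw [hζ.toInteger_isPrimitiveRoot.pow_add_pow_eq_prod_add_mul ω θ hodd] at h
  obtain ⟨η₀, hη₀, hdvd⟩ := hζ.zeta_sub_one_prime'.exists_mem_finset_dvd h
  have h2 : (hζ.toInteger - 1) ∣ η - η₀ :=
    hζ.toInteger_isPrimitiveRoot.sub_one_dvd_sub hp.out hη hη₀
  have : ω + η * θ = (ω + η₀ * θ) + (η - η₀) * θ := by ring
  rw [this]
  exact dvd_add hdvd (dvd_mul_of_dvd_left h2 _)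

/-- The quotients `(ω + η θ) / (ζ - 1)` for distinct roots of unity `η` are coprime. -/
theorem isCoprime_of_eq_mul {ω θ : 𝓞 K} (hcop : IsCoprime ω θ) {η₁ η₂ b₁ b₂ : 𝓞 K}
    (h₁ : η₁ ∈ nthRootsFinset p (1 : 𝓞 K)) (h₂ : η₂ ∈ nthRootsFinset p (1 : 𝓞 K)) (hne : η₁ ≠ η₂)
    (hb₁ : ω + η₁ * θ = (hζ.toInteger - 1) * b₁) (hb₂ : ω + η₂ * θ = (hζ.toInteger - 1) * b₂) :
    IsCoprime b₁ b₂ := by
  obtain ⟨u, hu⟩ := exists_unit_sub_eq hζ h₁ h₂ hne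
  have hl : (hζ.toInteger - 1) ≠ 0 := hζ.zeta_sub_one_prime'.ne_zero
  have e1 : b₁ - b₂ = u * θ := by
    apply mul_left_cancel₀ hl
    rw [mul_sub, ← hb₁, ← hb₂, ← mul_assoc, ← hu]; ring
  have e2 : η₂ * b₁ - η₁ * b₂ = - (u * ω) := by
    apply mul_left_cancel₀ hl
    have : (hζ.toInteger - 1) * (η₂ * b₁ - η₁ * b₂)
        = η₂ * ((hζ.toInteger - 1) * b₁) - η₁ * ((hζ.toInteger - 1) * b₂) := by ring
    rw [this, ← hb₁, ← hb₂]
    have : (hζ.toInteger - 1) * -(↑u * ω) = - ((η₁ - η₂) * ω) := by rw [hu]; ring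
    rw [this]; ring
  obtain ⟨s, t, hst⟩ := hcop
  refine ⟨(-s * η₂ + t) * ↑u⁻¹, (s * η₁ - t) * ↑u⁻¹, ?_⟩
  have : (-s * η₂ + t) * ↑u⁻¹ * b₁ + (s * η₁ - t) * ↑u⁻¹ * b₂
      = ↑u⁻¹ * (- s * (η₂ * b₁ - η₁ * b₂) + t * (b₁ - b₂)) := by ring
  rw [this, e1, e2]
  have : (↑u⁻¹ : 𝓞 K) * (-s * -(↑u * ω) + t * (↑u * θ)) = (↑u⁻¹ * ↑u) * (s * ω + t * θ) := by ring
  rw [this, hst]; simp

/-- Pigeonhole: one of the factors `ω + η θ` is divisible by `(ζ - 1) ^ 2`. -/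
theorem exists_sq_dvd (hp2 : p ≠ 2) {ω θ : 𝓞 K}
    (h : (hζ.toInteger - 1) ∣ ω ^ p + θ ^ p) (hθ : ¬ (hζ.toInteger - 1) ∣ θ) :
    ∃ η ∈ nthRootsFinset p (1 : 𝓞 K), (hζ.toInteger - 1) ^ 2 ∣ ω + η * θ := by
  classical
  have hprime := hζ.zeta_sub_one_prime'
  have hl : (hζ.toInteger - 1) ≠ 0 := hprime.ne_zero
  have hdvd : ∀ η : nthRootsFinset p (1 : 𝓞 K), ∃ c, ω + (η : 𝓞 K) * θ = (hζ.toInteger - 1) * c :=
    fun η => dvd_add_mul_of_dvd hζ hp2 h η.2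
  choose c hc using hdvd
  let f : nthRootsFinset p (1 : 𝓞 K) → 𝓞 K ⧸ Ideal.span {hζ.toInteger - 1} :=
    fun η => Ideal.Quotient.mk _ (c η)
  have hfin : Finite (𝓞 K ⧸ Ideal.span {hζ.toInteger - 1}) :=
    hζ.finite_quotient_toInteger_sub_one hp.out.one_lt
  have hcard : Nat.card (𝓞 K ⧸ Ideal.span {hζ.toInteger - 1}) = p := by
    rw [hζ.card_quotient_toInteger_sub_one, hζ.norm_toInteger_sub_one_of_prime_ne_two' hp2]
    simp
  have hcard' : Nat.card (nthRootsFinset p (1 : 𝓞 K)) = p := by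
    rw [Nat.card_eq_fintype_card, Fintype.card_coe, hζ.toInteger_isPrimitiveRoot.card_nthRootsFinset]
  have hinj : Function.Injective f := by
    intro η₁ η₂ h12
    by_contra hne
    have hne' : (η₁ : 𝓞 K) ≠ η₂ := fun h => hne (Subtype.ext h)
    obtain ⟨u, hu⟩ := exists_unit_sub_eq hζ η₁.2 η₂.2 hne'
    have h3 : (hζ.toInteger - 1) ∣ c η₁ - c η₂ := by
      rw [← Ideal.mem_span_singleton, ← Ideal.Quotient.eq]; exact h12
    have e1 : c η₁ - c η₂ = u * θ := by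
      apply mul_left_cancel₀ hl
      rw [mul_sub, ← hc, ← hc, ← mul_assoc, ← hu]; ring
    rw [e1] at h3
    exact hθ ((Units.dvd_mul_left).mp (by rwa [mul_comm] at h3 ⊢))
  have hbij := hinj.bijective_of_nat_card_le (by rw [hcard, hcard'])
  obtain ⟨η, hη⟩ := hbij.2 0
  refine ⟨η, η.2, ?_⟩
  have h3 : (hζ.toInteger - 1) ∣ c η := by
    rw [← Ideal.mem_span_singleton, ← Ideal.Quotient.eq_zero_iff_mem]; exact hη
  rw [hc, pow_two]
  exact mul_dvd_mul_left _ h3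

/-- The generalised Fermat equation `ω ^ p + θ ^ p = ε (ζ - 1) ^ (p m) ξ ^ p` has a solution. -/
def Sol (m : ℕ) : Prop :=
  ∃ (ω θ ξ : 𝓞 K) (ε : (𝓞 K)ˣ), IsCoprime ω θ ∧ ¬ (hζ.toInteger - 1) ∣ ω ∧
    ¬ (hζ.toInteger - 1) ∣ θ ∧ ¬ (hζ.toInteger - 1) ∣ ξ ∧
    ω ^ p + θ ^ p = ε * (hζ.toInteger - 1) ^ (p * m) * ξ ^ p

theorem descent_aux [IsPrincipalIdealRing (𝓞 K)] (hp2 : p ≠ 2)
    (hKummer : ∀ u : (𝓞 K)ˣ, (∃ n : ℤ, (p : 𝓞 K) ∣ (u : 𝓞 K) - n) → ∃ v : (𝓞 K)ˣ, u = v ^ p)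
    {ω θ ξ : 𝓞 K} {ε : (𝓞 K)ˣ} {m : ℕ} (hm : 1 ≤ m) (hcop : IsCoprime ω θ)
    (hθ : ¬ (hζ.toInteger - 1) ∣ θ) (hξ : ¬ (hζ.toInteger - 1) ∣ ξ)
    (heq : ω ^ p + θ ^ p = ε * (hζ.toInteger - 1) ^ (p * m) * ξ ^ p)
    (hsq : (hζ.toInteger - 1) ^ 2 ∣ ω + θ) :
    2 ≤ m ∧ Sol hζ (m - 1) := by
  classical
  have hprime : Prime (hζ.toInteger - 1) := hζ.zeta_sub_one_prime'
  have hl : (hζ.toInteger - 1) ≠ 0 := hprime.ne_zero
  have hodd : Odd p := hp.out.odd_of_ne_two hp2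
  have hz := hζ.toInteger_isPrimitiveRoot
  have hp3 : 3 ≤ p := by
    have := hp.out.two_le
    omega
  obtain ⟨m', rfl⟩ : ∃ k, m = k + 1 := ⟨m - 1, by omega⟩
  have hdvd0 : (hζ.toInteger - 1) ∣ ω ^ p + θ ^ p := by
    rw [heq]
    exact Dvd.dvd.mul_right (Dvd.dvd.mul_left (dvd_pow_self _ (by positivity)) _) _
  -- the quotients `b η = (ω + η θ) / (ζ - 1)`
  have hdvd : ∀ η ∈ nthRootsFinset p (1 : 𝓞 K), ∃ c, ω + η * θ = (hζ.toInteger - 1) * c :=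
    fun η hη => dvd_add_mul_of_dvd hζ hp2 hdvd0 hη
  choose! b hb using hdvd
  have h1mem : (1 : 𝓞 K) ∈ nthRootsFinset p (1 : 𝓞 K) := by
    rw [mem_nthRootsFinset hp.out.pos]; simp
  -- `ζ - 1` does not divide `b η` for `η ≠ 1`
  have hbnd : ∀ η ∈ nthRootsFinset p (1 : 𝓞 K), η ≠ 1 → ¬ (hζ.toInteger - 1) ∣ b η := by
    intro η hη hne hdiv
    obtain ⟨u, hu⟩ := exists_unit_sub_eq hζ hη h1mem hne
    obtain ⟨c, hc⟩ := hsq
    have e : b η = (hζ.toInteger - 1) * c + u * θ := by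
      apply mul_left_cancel₀ hl
      rw [← hb η hη]
      have : ω + η * θ = (ω + θ) + (η - 1) * θ := by ring
      rw [this, hc, hu]; ring
    rw [e] at hdiv
    have h4 : (hζ.toInteger - 1) ∣ ↑u * θ := (dvd_add_right (dvd_mul_right _ c)).mp hdiv
    exact hθ ((Units.dvd_mul_left).mp (by rwa [mul_comm] at h4 ⊢))
  -- the product of the `b η`
  have hprod : ∏ η ∈ nthRootsFinset p (1 : 𝓞 K), b η
      = ε * (hζ.toInteger - 1) ^ (p * m') * ξ ^ p := by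
    have h1 : ∏ η ∈ nthRootsFinset p (1 : 𝓞 K), (ω + η * θ)
        = (hζ.toInteger - 1) ^ p * ∏ η ∈ nthRootsFinset p (1 : 𝓞 K), b η := by
      rw [Finset.prod_congr rfl (fun η hη => hb η hη), Finset.prod_mul_distrib,
        Finset.prod_const, hz.card_nthRootsFinset]
    rw [← hz.pow_add_pow_eq_prod_add_mul ω θ hodd, heq] at h1
    apply mul_left_cancel₀ (pow_ne_zero p hl)
    rw [← h1, mul_add, pow_add]; ring
  rw [← Finset.mul_prod_erase _ _ h1mem] at hprod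
  have hP : ¬ (hζ.toInteger - 1) ∣ ∏ η ∈ (nthRootsFinset p (1 : 𝓞 K)).erase 1, b η := by
    intro h
    obtain ⟨η, hη, hdiv⟩ := hprime.exists_mem_finset_dvd h
    exact hbnd η (Finset.mem_of_mem_erase hη) (Finset.ne_of_mem_erase hη) hdiv
  obtain ⟨C, hC⟩ : (hζ.toInteger - 1) ^ (p * m') ∣ b 1 := by
    apply hprime.pow_dvd_of_dvd_mul_right _ hP
    rw [hprod]
    exact Dvd.dvd.mul_right (Dvd.dvd.mul_left (dvd_refl _) _) _
  have hCP : C * ∏ η ∈ (nthRootsFinset p (1 : 𝓞 K)).erase 1, b η = ε * ξ ^ p := by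
    apply mul_left_cancel₀ (pow_ne_zero (p * m') hl)
    rw [← mul_assoc, ← hC, hprod]; ring
  have hCnd : ¬ (hζ.toInteger - 1) ∣ C := by
    intro h
    have h2 : (hζ.toInteger - 1) ∣ ↑ε * ξ ^ p := by rw [← hCP]; exact Dvd.dvd.mul_right h _
    exact hξ (hprime.dvd_of_dvd_pow ((Units.dvd_mul_left).mp (by rwa [mul_comm] at h2 ⊢)))
  -- `m ≥ 2`
  have hm2 : 1 ≤ m' := by
    by_contra hcon
    have hm0 : m' = 0 := by omega
    subst hm0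
    simp only [mul_zero, pow_zero, one_mul] at hC
    obtain ⟨c, hc⟩ := hsq
    have : b 1 = (hζ.toInteger - 1) * c := by
      apply mul_left_cancel₀ hl
      rw [← hb 1 h1mem, one_mul, hc]; ring
    exact hCnd ⟨c, by rw [← hC, this]⟩
  refine ⟨by omega, ?_⟩
  simp only [Nat.add_sub_cancel]
  -- `ζ` and `ζ ^ 2`
  have hzmem : hζ.toInteger ∈ nthRootsFinset p (1 : 𝓞 K) := by
    rw [mem_nthRootsFinset hp.out.pos]; exact hz.pow_eq_one
  have hz2mem : hζ.toInteger ^ 2 ∈ nthRootsFinset p (1 : 𝓞 K) := by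
    rw [mem_nthRootsFinset hp.out.pos, ← pow_mul, mul_comm, pow_mul, hz.pow_eq_one, one_pow]
  have hz1 : hζ.toInteger ≠ 1 := hz.ne_one hp.out.one_lt
  have hz21 : hζ.toInteger ^ 2 ≠ 1 := hz.pow_ne_one_of_pos_of_lt (by norm_num) (by omega)
  have hz2z : hζ.toInteger ≠ hζ.toInteger ^ 2 := by
    intro h
    apply hz1
    have h5 : hζ.toInteger * 1 = hζ.toInteger * hζ.toInteger := by rw [mul_one, ← pow_two]; exact h
    exact (mul_left_cancel₀ (hz.ne_zero hp.out.ne_zero) h5).symm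
  -- pairwise coprimality
  have hcopb : ∀ η₁ ∈ nthRootsFinset p (1 : 𝓞 K), ∀ η₂ ∈ nthRootsFinset p (1 : 𝓞 K), η₁ ≠ η₂ →
      IsCoprime (b η₁) (b η₂) := fun η₁ h₁ η₂ h₂ hne =>
    isCoprime_of_eq_mul hζ hcop h₁ h₂ hne (hb η₁ h₁) (hb η₂ h₂)
  have hCb1 : C ∣ b 1 := ⟨(hζ.toInteger - 1) ^ (p * m'), by rw [hC]; ring⟩
  -- each of `b ζ`, `b (ζ ^ 2)`, `C` is associated to a `p`-th power
  have key : ∀ η ∈ (nthRootsFinset p (1 : 𝓞 K)).erase 1, ∃ ρ : 𝓞 K, Associated (ρ ^ p) (b η) := by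
    intro η hη
    have hη' := Finset.mem_of_mem_erase hη
    have hne := Finset.ne_of_mem_erase hη
    have h6 : IsCoprime (b η) (C * ∏ η' ∈ ((nthRootsFinset p (1 : 𝓞 K)).erase 1).erase η, b η') := by
      apply IsCoprime.mul_right
      · exact IsCoprime.of_isCoprime_of_dvd_right (hcopb η hη' 1 h1mem hne) hCb1
      · apply IsCoprime.prod_right
        intro η' hη''
        exact hcopb η hη' η' (Finset.mem_of_mem_erase (Finset.mem_of_mem_erase hη''))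
          (Finset.ne_of_mem_erase hη'').symm
    apply exists_associated_pow_of_associated_pow_mul h6 (c := ξ)
    have : b η * (C * ∏ η' ∈ ((nthRootsFinset p (1 : 𝓞 K)).erase 1).erase η, b η')
        = ε * ξ ^ p := by
      rw [← hCP, ← Finset.mul_prod_erase _ _ hη]; ring
    rw [this]
    exact ⟨ε, by ring⟩
  have keyC : ∃ ρ : 𝓞 K, Associated (ρ ^ p) C := by
    have h6 : IsCoprime C (∏ η ∈ (nthRootsFinset p (1 : 𝓞 K)).erase 1, b η) := by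
      apply IsCoprime.prod_right
      intro η hη
      exact IsCoprime.of_isCoprime_of_dvd_left
        (hcopb 1 h1mem η (Finset.mem_of_mem_erase hη) (Finset.ne_of_mem_erase hη).symm) hCb1
    apply exists_associated_pow_of_associated_pow_mul h6 (c := ξ)
    rw [hCP]
    exact ⟨ε, by ring⟩
  obtain ⟨ρ₁, u₁, h₁⟩ := key _ (Finset.mem_erase.mpr ⟨hz1, hzmem⟩)
  obtain ⟨ρ₂, u₂, h₂⟩ := key _ (Finset.mem_erase.mpr ⟨hz21, hz2mem⟩)
  obtain ⟨ρ₀, u₀, h₀⟩ := keyC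
  -- the three term relation
  have hrel : (hζ.toInteger + 1) * b hζ.toInteger - b (hζ.toInteger ^ 2)
      = hζ.toInteger * ((hζ.toInteger - 1) ^ (p * m') * C) := by
    apply mul_left_cancel₀ hl
    rw [← hC]
    have e1 : (hζ.toInteger - 1) * ((hζ.toInteger + 1) * b hζ.toInteger - b (hζ.toInteger ^ 2))
        = (hζ.toInteger + 1) * ((hζ.toInteger - 1) * b hζ.toInteger)
          - (hζ.toInteger - 1) * b (hζ.toInteger ^ 2) := by ring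
    have e2 : (hζ.toInteger - 1) * (hζ.toInteger * b 1)
        = hζ.toInteger * ((hζ.toInteger - 1) * b 1) := by ring
    rw [e1, e2, ← hb _ hzmem, ← hb _ hz2mem, ← hb _ h1mem]; ring
  -- the unit `ζ + 1`
  obtain ⟨v, hv⟩ : IsUnit (hζ.toInteger + 1) := by
    have := hz.geom_sum_isUnit hp.out.two_le (j := 2)
      ((Nat.coprime_primes Nat.prime_two hp.out).mpr (Ne.symm hp2))
    simpa [Finset.sum_range_succ, add_comm] using this
  have hzu : IsUnit hζ.toInteger := hz.isUnit hp.out.ne_zero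
  obtain ⟨zu, hzu'⟩ := hzu
  -- the new equation
  set η' : (𝓞 K)ˣ := - (u₂ * (v * u₁)⁻¹) with hη'
  have hw : (↑(v * u₁) : 𝓞 K) = (hζ.toInteger + 1) * u₁ := by rw [Units.val_mul, hv]
  have hwi : (↑(v * u₁) : 𝓞 K) * ↑(v * u₁)⁻¹ = 1 := Units.mul_inv _
  have hη'v : (η' : 𝓞 K) = - (u₂ * ↑(v * u₁)⁻¹) := by rw [hη', Units.val_neg, Units.val_mul]
  have hεv : (↑(zu * u₀ * (v * u₁)⁻¹) : 𝓞 K) = hζ.toInteger * u₀ * ↑(v * u₁)⁻¹ := by
    rw [Units.val_mul, Units.val_mul, hzu']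
  have hnew : ρ₁ ^ p + η' * ρ₂ ^ p
      = ↑(zu * u₀ * (v * u₁)⁻¹) * (hζ.toInteger - 1) ^ (p * m') * ρ₀ ^ p := by
    have h7 : (↑(v * u₁) : 𝓞 K) * (ρ₁ ^ p + η' * ρ₂ ^ p)
        = ↑(v * u₁) * (↑(zu * u₀ * (v * u₁)⁻¹) * (hζ.toInteger - 1) ^ (p * m') * ρ₀ ^ p) := by
      have e3 : (↑(v * u₁) : 𝓞 K) * (ρ₁ ^ p + η' * ρ₂ ^ p)
          = (hζ.toInteger + 1) * (ρ₁ ^ p * u₁) - ρ₂ ^ p * u₂ := by
        rw [hη'v]
        linear_combination (ρ₁ ^ p) * hw + (- ↑u₂ * ρ₂ ^ p) * hwi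
      have e4 : (↑(v * u₁) : 𝓞 K) *
          (↑(zu * u₀ * (v * u₁)⁻¹) * (hζ.toInteger - 1) ^ (p * m') * ρ₀ ^ p)
          = hζ.toInteger * ((hζ.toInteger - 1) ^ (p * m') * (ρ₀ ^ p * u₀)) := by
        rw [hεv]
        linear_combination (hζ.toInteger * ↑u₀ * (hζ.toInteger - 1) ^ (p * m') * ρ₀ ^ p) * hwi
      rw [e3, e4, h₁, h₂, h₀, hrel]
    exact mul_left_cancel₀ (Units.ne_zero _) h7
  -- divisibility facts for the new solution
  have hpne : p ≠ 0 := hp.out.ne_zero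
  have hρ₁ : ¬ (hζ.toInteger - 1) ∣ ρ₁ := by
    intro h
    apply hbnd _ hzmem hz1
    rw [← h₁]
    exact Dvd.dvd.mul_right (dvd_pow h hpne) _
  have hρ₂ : ¬ (hζ.toInteger - 1) ∣ ρ₂ := by
    intro h
    apply hbnd _ hz2mem hz21
    rw [← h₂]
    exact Dvd.dvd.mul_right (dvd_pow h hpne) _
  have hρ₀ : ¬ (hζ.toInteger - 1) ∣ ρ₀ := by
    intro h
    apply hCnd
    rw [← h₀]
    exact Dvd.dvd.mul_right (dvd_pow h hpne) _
  have hcopρ : IsCoprime ρ₁ ρ₂ := by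
    have h8 : IsCoprime (b hζ.toInteger) (b (hζ.toInteger ^ 2)) := hcopb _ hzmem _ hz2mem hz2z
    have d1 : ρ₁ ∣ b hζ.toInteger := by
      rw [← h₁]; exact Dvd.dvd.mul_right (dvd_pow_self _ hpne) _
    have d2 : ρ₂ ∣ b (hζ.toInteger ^ 2) := by
      rw [← h₂]; exact Dvd.dvd.mul_right (dvd_pow_self _ hpne) _
    exact IsCoprime.of_isCoprime_of_dvd_left (IsCoprime.of_isCoprime_of_dvd_right h8 d2) d1
  -- `η'` is congruent to an integer mod `p`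
  have hpdvd : (p : 𝓞 K) ∣ ρ₁ ^ p + η' * ρ₂ ^ p := by
    rw [hnew]
    have h9 : (p : 𝓞 K) ∣ (hζ.toInteger - 1) ^ (p - 1) :=
      (IsCyclotomicExtension.Rat.associated_zeta_sub_one_pow_prime p hζ).symm.dvd
    have h10 : p - 1 ≤ p * m' := le_trans (Nat.sub_le _ _) (Nat.le_mul_of_pos_right _ hm2)
    exact Dvd.dvd.mul_right (Dvd.dvd.mul_left (dvd_trans h9 (pow_dvd_pow _ h10)) _) _
  have hint : ∃ n : ℤ, (p : 𝓞 K) ∣ (η' : 𝓞 K) - n := by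
    obtain ⟨a, ha⟩ := exists_int_dvd_pow_sub (p := p) ρ₁
    obtain ⟨c, hc⟩ := exists_int_dvd_pow_sub (p := p) ρ₂
    have hpc : ¬ (p : ℤ) ∣ c := by
      intro hdiv
      have h10 : (p : 𝓞 K) ∣ ρ₂ ^ p := by
        have : ρ₂ ^ p = (ρ₂ ^ p - c) + c := by ring
        rw [this]
        refine dvd_add hc ?_
        obtain ⟨d, rfl⟩ := hdiv
        push_cast
        exact dvd_mul_right _ _
      have h11 : (hζ.toInteger - 1) ∣ ρ₂ ^ p := by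
        exact dvd_trans hζ.toInteger_sub_one_dvd_prime' h10
      exact hρ₂ (hprime.dvd_of_dvd_pow h11)
    have hcop2 : IsCoprime (p : ℤ) c :=
      (Nat.prime_iff_prime_int.mp hp.out).coprime_iff_not_dvd.mpr hpc
    obtain ⟨s, t, hst⟩ := hcop2
    refine ⟨-(t * a), ?_⟩
    have hst' : (s : 𝓞 K) * p + t * c = 1 := by exact_mod_cast congrArg (Int.cast : ℤ → 𝓞 K) hst
    have : (η' : 𝓞 K) - ((-(t * a) : ℤ) : 𝓞 K)
        = (p : 𝓞 K) * (η' * s) + t * ((ρ₁ ^ p + η' * ρ₂ ^ p) - (ρ₁ ^ p - a) - η' * (ρ₂ ^ p - c)) := by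
      push_cast
      linear_combination (-(η' : 𝓞 K)) * hst'
    rw [this]
    exact dvd_add (dvd_mul_right _ _)
      (Dvd.dvd.mul_left (dvd_sub (dvd_sub hpdvd ha) (Dvd.dvd.mul_left hc _)) _)
  obtain ⟨δ, hδ⟩ := hKummer η' hint
  refine ⟨ρ₁, δ * ρ₂, ρ₀, zu * u₀ * (v * u₁)⁻¹, ?_, hρ₁, ?_, hρ₀, ?_⟩
  · exact (isCoprime_mul_unit_left_right δ.isUnit _ _).mpr hcopρ
  · intro h
    exact hρ₂ ((Units.dvd_mul_left).mp (by rwa [mul_comm] at h ⊢))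
  · rw [← hnew, hδ, mul_pow]; simp

theorem descent [IsPrincipalIdealRing (𝓞 K)] (hp2 : p ≠ 2)
    (hKummer : ∀ u : (𝓞 K)ˣ, (∃ n : ℤ, (p : 𝓞 K) ∣ (u : 𝓞 K) - n) → ∃ v : (𝓞 K)ˣ, u = v ^ p)
    {m : ℕ} (hm : 1 ≤ m) (hS : Sol hζ m) : 2 ≤ m ∧ Sol hζ (m - 1) := by
  obtain ⟨ω, θ, ξ, ε, hcop, -, hθ, hξ, heq⟩ := hS
  have hdvd0 : (hζ.toInteger - 1) ∣ ω ^ p + θ ^ p := by
    rw [heq]
    exact Dvd.dvd.mul_right (Dvd.dvd.mul_left (dvd_pow_self _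
      (Nat.mul_ne_zero hp.out.ne_zero (by omega))) _) _
  obtain ⟨η, hη, hsq⟩ := exists_sq_dvd hζ hp2 hdvd0 hθ
  have hηp : η ^ p = 1 := (mem_nthRootsFinset hp.out.pos 1).mp hη
  have hηu : IsUnit η := IsUnit.of_pow_eq_one hηp hp.out.ne_zero
  refine descent_aux hζ hp2 hKummer hm (θ := η * θ) (ξ := ξ) (ε := ε)
    ((isCoprime_mul_unit_left_right hηu _ _).mpr hcop) ?_ hξ ?_ hsq
  · intro h
    exact hθ ((hηu.dvd_mul_left).mp h)
  · rw [mul_pow, hηp, one_mul, heq]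

theorem not_sol [IsPrincipalIdealRing (𝓞 K)] (hp2 : p ≠ 2)
    (hKummer : ∀ u : (𝓞 K)ˣ, (∃ n : ℤ, (p : 𝓞 K) ∣ (u : 𝓞 K) - n) → ∃ v : (𝓞 K)ˣ, u = v ^ p)
    (m : ℕ) (hm : 1 ≤ m) : ¬ Sol hζ m := by
  induction m with
  | zero => omega
  | succ k ih =>
    intro hS
    obtain ⟨h2, hS'⟩ := descent hζ hp2 hKummer hm hS
    exact ih (by omega) hS'

end descent

end CaseII

/-- **Case II** of Fermat's Last Theorem for an odd prime `p` such that the `p`-th cyclotomic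
integers form a principal ideal domain in which Kummer's lemma holds. -/
theorem caseII {p : ℕ} [Fact p.Prime] (hp5 : 5 ≤ p) {K : Type*} [Field K] [NumberField K]
    [IsCyclotomicExtension {p} ℚ K] [IsPrincipalIdealRing (𝓞 K)]
    (hKummer : ∀ u : (𝓞 K)ˣ, (∃ n : ℤ, (p : 𝓞 K) ∣ (u : 𝓞 K) - n) → ∃ v : (𝓞 K)ˣ, u = v ^ p)
    (x y z : ℤ) (hxy : IsCoprime x y) (hz : z ≠ 0) (hpz : (p : ℤ) ∣ z)
    (h : x ^ p + y ^ p = z ^ p) : False := by
  have hp : p.Prime := Fact.out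
  have hp2 : p ≠ 2 := by omega
  have hpZ : Prime (p : ℤ) := Nat.prime_iff_prime_int.mp hp
  have hζ := IsCyclotomicExtension.zeta_spec p ℚ K
  -- `p` divides neither `x` nor `y`
  have hpxy : (p : ℤ) ∣ x ^ p + y ^ p := by rw [h]; exact dvd_pow hpz hp.ne_zero
  have hx : ¬ (p : ℤ) ∣ x := by
    intro hx
    have hy : (p : ℤ) ∣ y :=
      hpZ.dvd_of_dvd_pow ((dvd_add_right (dvd_pow hx hp.ne_zero)).mp hpxy)
    exact hpZ.not_isUnit (hxy.isUnit_of_dvd' hx hy)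
  have hy : ¬ (p : ℤ) ∣ y := by
    intro hy
    have hx' : (p : ℤ) ∣ x :=
      hpZ.dvd_of_dvd_pow ((dvd_add_left (dvd_pow hy hp.ne_zero)).mp hpxy)
    exact hx hx'
  -- write `z = p ^ k * z₀`
  have hfin : FiniteMultiplicity (p : ℤ) z :=
    Int.finiteMultiplicity_iff.mpr ⟨by simpa using hp.ne_one, hz⟩
  obtain ⟨z₀, hz₀, hz₀'⟩ := hfin.exists_eq_pow_mul_and_not_dvd
  set k := multiplicity (p : ℤ) z with hk
  have hk1 : 1 ≤ k := by
    by_contra hcon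
    have hk0 : k = 0 := by omega
    rw [hk0, pow_zero, one_mul] at hz₀
    exact hz₀' (hz₀ ▸ hpz)
  obtain ⟨u, hu⟩ := IsCyclotomicExtension.Rat.associated_zeta_sub_one_pow_prime p hζ
  refine CaseII.not_sol hζ hp2 hKummer ((p - 1) * k) (Nat.mul_pos (by omega) hk1)
    ⟨x, y, z₀, u ^ (k * p), hxy.intCast, ?_, ?_, ?_, ?_⟩
  · rwa [IsCyclotomicExtension.Rat.zeta_sub_one_dvd_intCast_iff' p hζ]
  · rwa [IsCyclotomicExtension.Rat.zeta_sub_one_dvd_intCast_iff' p hζ]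
  · rwa [IsCyclotomicExtension.Rat.zeta_sub_one_dvd_intCast_iff' p hζ]
  · have h1 : ((x : 𝓞 K)) ^ p + (y : 𝓞 K) ^ p = (z : 𝓞 K) ^ p := by
      exact_mod_cast congrArg (Int.cast : ℤ → 𝓞 K) h
    rw [h1, hz₀]
    push_cast
    rw [← hu]
    ring

end Fermat.Agent.FLTSmall
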