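import Fermat.Agent.FLTSmall.CaseI
import Fermat.Prelude.Def_FLTPrelim_FreyPackage

/-!
# Glue for the small exponents `p = 5, 7, 11, 13`

`no_solution_of_caseII`: Case I (Sophie Germain, `CaseI.lean`) together with Case II
(for `p ∣ z`, supplied as a hypothesis) excludes every primitive solution of
`a ^ p + b ^ p = c ^ p` with `a b c ≠ 0`.  `no_freyPackage_of_caseII` specialises this to a
`FreyPackage`.
-/

set_option autoImplicit false

namespace Fermat.Agent.FLTSmall

/-- The statement of Case II over `ℤ` for the exponent `p`. -/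
def CaseIIStatement (p : ℕ) : Prop :=
  ∀ x y z : ℤ, IsCoprime x y → z ≠ 0 → (p : ℤ) ∣ z → x ^ p + y ^ p = z ^ p → False

namespace Glue

theorem isCoprime_of_add_pow_eq {p : ℕ} (hp : 0 < p) {a b c : ℤ} (hab : IsCoprime a b)
    (h : a ^ p + b ^ p = c ^ p) : IsCoprime c a ∧ IsCoprime c b := by
  have hpow : ∀ t : ℤ, t ^ p = t * t ^ (p - 1) := fun t => by
    rw [← pow_succ', Nat.sub_add_cancel hp]
  constructor
  · have h3 : IsCoprime a (c ^ p) := by
      have h4 : c ^ p = b ^ p + a * a ^ (p - 1) := by rw [← hpow a, ← h]; ring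
      rw [h4]
      exact IsCoprime.add_mul_left_right hab.pow_right _
    exact ((IsCoprime.pow_right_iff hp).mp h3).symm
  · have h3 : IsCoprime b (c ^ p) := by
      have h4 : c ^ p = a ^ p + b * b ^ (p - 1) := by rw [← hpow b, ← h]
      rw [h4]
      exact IsCoprime.add_mul_left_right hab.symm.pow_right _
    exact ((IsCoprime.pow_right_iff hp).mp h3).symm

end Glue

/-- Case I + Case II exclude all primitive nonzero solutions for `p = 5, 7, 11, 13`. -/
theorem no_solution_of_caseII {p : ℕ} (hp : p = 5 ∨ p = 7 ∨ p = 11 ∨ p = 13)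
    (hII : CaseIIStatement p) (a b c : ℤ) (ha : a ≠ 0) (hb : b ≠ 0) (hc : c ≠ 0)
    (hab : IsCoprime a b) (h : a ^ p + b ^ p = c ^ p) : False := by
  have hpp : p.Prime := by rcases hp with rfl | rfl | rfl | rfl <;> norm_num
  have hp2 : p ≠ 2 := by rcases hp with rfl | rfl | rfl | rfl <;> norm_num
  have hodd : Odd p := hpp.odd_of_ne_two hp2
  have hpZ : Prime (p : ℤ) := Nat.prime_iff_prime_int.mp hpp
  obtain ⟨hca, hcb⟩ := Glue.isCoprime_of_add_pow_eq hpp.pos hab h
  by_cases hdvd : (p : ℤ) ∣ a * b * c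
  · rcases hpZ.dvd_or_dvd hdvd with h1 | h1
    · rcases hpZ.dvd_or_dvd h1 with h2 | h2
      · -- `p ∣ a`: `c ^ p + (-b) ^ p = a ^ p`
        refine hII c (-b) a hcb.neg_right ha h2 ?_
        rw [Odd.neg_pow hodd, ← h]; ring
      · -- `p ∣ b`: `c ^ p + (-a) ^ p = b ^ p`
        refine hII c (-a) b hca.neg_right hb h2 ?_
        rw [Odd.neg_pow hodd, ← h]; ring
    · exact hII a b c hab hc h1 h
  · exact caseI hp a b c hab hdvd h

/-- No Frey package with `p ∈ {5, 7, 11, 13}` exists, given Case II for that exponent. -/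
theorem no_freyPackage_of_caseII (P : FreyPackage)
    (hp : P.p = 5 ∨ P.p = 7 ∨ P.p = 11 ∨ P.p = 13) (hII : CaseIIStatement P.p) : False := by
  have hab : IsCoprime P.a P.b := by
    rw [Int.isCoprime_iff_gcd_eq_one]
    have h1 : ((Int.gcd P.a P.b : ℕ) : ℤ) = 1 := by
      rw [Int.coe_gcd]; exact P.hgcdab
    exact_mod_cast h1
  exact no_solution_of_caseII hp hII P.a P.b P.c P.ha0 P.hb0 P.hc0 hab P.hFLT

end Fermat.Agent.FLTSmall
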