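import Mathlib

/-!
# Generators of the unit group of a prime cyclotomic field and the generic Kummer counting lemma

* `Fermat.Agent.FLTSmall.exists_unit_generators` : the unit group of `𝓞 K`, `K = ℚ(ζ_p)`,
  `p` an odd prime, is generated by `(p - 1) / 2` elements (Dirichlet's unit theorem).
* `Fermat.Agent.FLTSmall.kummer_of_dlog'` / `kummer_of_dlog` : if an additive "logarithm"
  `L : (𝓞 K)ˣ → V` (`V` a `ZMod p`-vector space) takes linearly independent values on
  `(p - 1) / 2` units, then every unit in the kernel of `L` is a `p`-th power.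
-/

set_option autoImplicit false

open NumberField NumberField.Units

namespace Fermat.Agent.FLTSmall

namespace UnitGens

/-- The unit rank of a `p`-th cyclotomic field (`p` an odd prime) is `(p - 1) / 2 - 1`. -/
theorem rank_add_one {p : ℕ} [Fact p.Prime] (hp : p ≠ 2) {K : Type*} [Field K] [NumberField K]
    [IsCyclotomicExtension {p} ℚ K] : Units.rank K + 1 = (p - 1) / 2 := by
  have hpp : p.Prime := Fact.out
  have h2 : 2 < p := lt_of_le_of_ne hpp.two_le (Ne.symm hp)
  have h1 : NumberField.InfinitePlace.nrRealPlaces K = 0 :=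
    IsCyclotomicExtension.Rat.nrRealPlaces_eq_zero K h2
  have h3 : NumberField.InfinitePlace.nrComplexPlaces K = p.totient / 2 :=
    IsCyclotomicExtension.Rat.nrComplexPlaces_eq_totient_div_two p K
  have h4 : Fintype.card (InfinitePlace K) = (p - 1) / 2 := by
    rw [NumberField.InfinitePlace.card_eq_nrRealPlaces_add_nrComplexPlaces, h1, h3,
      Nat.totient_prime hpp, zero_add]
  have h5 : 1 ≤ (p - 1) / 2 := by omega
  unfold Units.rank
  rw [h4]
  omega

/-- General form of Dirichlet's unit theorem as a generation statement. -/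
theorem exists_generators_of_rank (K : Type*) [Field K] [NumberField K] (n : ℕ)
    (hn : Units.rank K + 1 = n) :
    ∃ g : Fin n → (𝓞 K)ˣ, ∀ u : (𝓞 K)ˣ, ∃ e : Fin n → ℤ, u = ∏ i, g i ^ e i := by
  subst hn
  obtain ⟨τ, hτ⟩ := IsCyclic.exists_generator (α := torsion K)
  refine ⟨Fin.cons (τ : (𝓞 K)ˣ) (fundSystem K), fun u => ?_⟩
  obtain ⟨⟨ζ, e⟩, hu, -⟩ := exist_unique_eq_mul_prod K u
  obtain ⟨j, hj⟩ := Subgroup.mem_zpowers_iff.mp (hτ ζ)
  refine ⟨Fin.cons j e, ?_⟩
  rw [Fin.prod_univ_succ]
  simp only [Fin.cons_zero, Fin.cons_succ]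
  rw [hu]
  congr 1
  rw [← hj]
  simp

/-- An additive function on a commutative group, as a monoid hom into `Multiplicative`. -/
def toHom {G V : Type*} [Group G] [AddCommGroup V] (L : G → V)
    (hmul : ∀ u v, L (u * v) = L u + L v) : G →* Multiplicative V where
  toFun u := Multiplicative.ofAdd (L u)
  map_one' := by
    have h := hmul 1 1
    rw [mul_one] at h
    have h0 : L 1 = 0 := by
      have := congrArg (fun x => x - L 1) h
      simpa using this.symm
    simp [h0]
  map_mul' u v := by simp [hmul]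

theorem map_prod_zpow {G V : Type*} [CommGroup G] [AddCommGroup V] (L : G → V)
    (hmul : ∀ u v, L (u * v) = L u + L v) {n : ℕ} (g : Fin n → G) (e : Fin n → ℤ) :
    L (∏ i, g i ^ e i) = ∑ i, e i • L (g i) := by
  calc L (∏ i, g i ^ e i) = Multiplicative.toAdd (toHom L hmul (∏ i, g i ^ e i)) := rfl
    _ = Multiplicative.toAdd (∏ i, (toHom L hmul (g i)) ^ e i) := by
        rw [map_prod]; simp only [map_zpow]
    _ = ∑ i, e i • L (g i) := by
        rw [toAdd_prod]
        exact Finset.sum_congr rfl fun i _ => by rw [toAdd_zpow]; rfl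

end UnitGens

open UnitGens

/-- The unit group of the ring of integers of the `p`-th cyclotomic field, `p` an odd prime, is
generated by `(p - 1) / 2` elements. -/
theorem exists_unit_generators {p : ℕ} [Fact p.Prime] (hp : p ≠ 2) {K : Type*} [Field K]
    [NumberField K] [IsCyclotomicExtension {p} ℚ K] :
    ∃ g : Fin ((p - 1) / 2) → (𝓞 K)ˣ, ∀ u : (𝓞 K)ˣ,
      ∃ e : Fin ((p - 1) / 2) → ℤ, u = ∏ i, g i ^ e i :=
  exists_generators_of_rank K _ (rank_add_one hp)

/-- Generic counting lemma: if `L` is additive on units with values in a `ZMod p`-vector space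
and takes linearly independent values on `(p - 1) / 2` units, then every unit killed by `L` is a
`p`-th power. -/
theorem kummer_of_dlog' {p : ℕ} [Fact p.Prime] (hp2 : p ≠ 2) {K : Type*} [Field K]
    [NumberField K] [IsCyclotomicExtension {p} ℚ K] {V : Type*} [AddCommGroup V]
    [Module (ZMod p) V] (L : (𝓞 K)ˣ → V) (hmul : ∀ u v, L (u * v) = L u + L v)
    (ε : Fin ((p - 1) / 2) → (𝓞 K)ˣ) (hind : LinearIndependent (ZMod p) (fun a => L (ε a))) :
    ∀ u : (𝓞 K)ˣ, L u = 0 → ∃ v : (𝓞 K)ˣ, u = v ^ p := by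
  obtain ⟨g, hg⟩ := exists_unit_generators (K := K) hp2
  -- the values of `L` on the generators
  have hLg : ∀ e : Fin ((p - 1) / 2) → ℤ,
      L (∏ i, g i ^ e i) = ∑ i, (e i : ZMod p) • L (g i) := by
    intro e
    rw [map_prod_zpow L hmul]
    exact Finset.sum_congr rfl fun i _ => (Int.cast_smul_eq_zsmul (ZMod p) (e i) (L (g i))).symm
  -- the span of the `L (ε a)` is contained in the span of the `L (g i)`
  have hle : Submodule.span (ZMod p) (Set.range fun a => L (ε a)) ≤
      Submodule.span (ZMod p) (Set.range fun i => L (g i)) := by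
    rw [Submodule.span_le]
    rintro _ ⟨a, rfl⟩
    obtain ⟨e, he⟩ := hg (ε a)
    simp only [SetLike.mem_coe]
    rw [he, hLg]
    exact Submodule.sum_mem _ fun i _ =>
      Submodule.smul_mem _ _ (Submodule.subset_span ⟨i, rfl⟩)
  -- hence the `L (g i)` are linearly independent
  have hgind : LinearIndependent (ZMod p) (fun i => L (g i)) := by
    rw [linearIndependent_iff_card_le_finrank_span]
    have h1 : Module.finrank (ZMod p) (Submodule.span (ZMod p) (Set.range fun a => L (ε a))) =
        Fintype.card (Fin ((p - 1) / 2)) := finrank_span_eq_card hind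
    have : Module.Finite (ZMod p) (Submodule.span (ZMod p) (Set.range fun i => L (g i))) :=
      FiniteDimensional.span_of_finite (ZMod p) (Set.finite_range _)
    have h2 := Submodule.finrank_mono hle
    calc Fintype.card (Fin ((p - 1) / 2))
        = Module.finrank (ZMod p) (Submodule.span (ZMod p) (Set.range fun a => L (ε a))) :=
          h1.symm
      _ ≤ _ := h2
  intro u hu
  obtain ⟨e, he⟩ := hg u
  have h0 : ∑ i, (e i : ZMod p) • L (g i) = 0 := by rw [← hLg, ← he, hu]
  have hz : ∀ i, (e i : ZMod p) = 0 := Fintype.linearIndependent_iff.mp hgind _ h0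
  have hdvd : ∀ i, ∃ c : ℤ, e i = (p : ℤ) * c := fun i =>
    (ZMod.intCast_zmod_eq_zero_iff_dvd (e i) p).mp (hz i)
  choose c hc using hdvd
  refine ⟨∏ i, g i ^ c i, ?_⟩
  rw [he, ← Finset.prod_pow]
  refine Finset.prod_congr rfl fun i _ => ?_
  rw [hc i, mul_comm, zpow_mul, zpow_natCast]

/-- Generic counting lemma, in the form used for Kummer's lemma: if moreover `L` kills the units
congruent to a rational integer modulo `p`, then every such unit is a `p`-th power. -/
theorem kummer_of_dlog {p : ℕ} [Fact p.Prime] (hp2 : p ≠ 2) {K : Type*} [Field K]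
    [NumberField K] [IsCyclotomicExtension {p} ℚ K] {V : Type*} [AddCommGroup V]
    [Module (ZMod p) V] (L : (𝓞 K)ˣ → V) (hmul : ∀ u v, L (u * v) = L u + L v)
    (hL : ∀ u : (𝓞 K)ˣ, (∃ n : ℤ, (p : 𝓞 K) ∣ (u : 𝓞 K) - n) → L u = 0)
    (ε : Fin ((p - 1) / 2) → (𝓞 K)ˣ) (hind : LinearIndependent (ZMod p) (fun a => L (ε a))) :
    ∀ u : (𝓞 K)ˣ, (∃ n : ℤ, (p : 𝓞 K) ∣ (u : 𝓞 K) - n) → ∃ v : (𝓞 K)ˣ, u = v ^ p :=
  fun u hu => kummer_of_dlog' hp2 L hmul ε hind u (hL u hu)

end Fermat.Agent.FLTSmall
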