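import Mathlib
import Fermat.Agent.FLTSmall.UnitGens

/-!
# Kummer's lemma for `p = 5, 7, 11, 13`

For `K = ℚ(ζ_p)` with `p ∈ {5, 7, 11, 13}`: a unit of `𝓞 K` which is congruent to a rational
integer modulo `p` is a `p`-th power of a unit (`Fermat.Agent.FLTSmall.kummer_lemma`).

Method: let `V = 𝔽_p[y]/(y^(p-2))`. There is a ring homomorphism `Θ : 𝓞 K → V[ε]` (dual numbers)
with `ζ ↦ 1 + y + ε`; writing `Θ x = A x + B x ε`, the map `u ↦ B u / A u` is a homomorphism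
from the units to `(V, +)` (a logarithmic derivative) which kills units congruent to an integer
mod `p`. By Dirichlet's unit theorem (`exists_unit_generators`, via `kummer_of_dlog`) it suffices
to exhibit `(p - 1) / 2` units with `𝔽_p`-linearly independent logarithmic derivatives; we take
`ζ` and `1 + ζ + ⋯ + ζ^(a-1)`, `2 ≤ a ≤ (p-1)/2`, and certify independence by explicit matrices.
-/

set_option autoImplicit false

namespace Fermat.Agent.FLTSmall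

open Polynomial NumberField TrivSqZeroExt
open scoped DualNumber

namespace KummerDual

section construction



variable (p : ℕ) [Fact p.Prime]

/-- `𝔽_p[y]/(y^(p-2))`. -/
abbrev V : Type := AdjoinRoot ((X : (ZMod p)[X]) ^ (p - 2))

/-- The class of `y`. -/
noncomputable abbrev y : V p := AdjoinRoot.root _

lemma y_pow : (y p) ^ (p - 2) = 0 := by
  have := AdjoinRoot.eval₂_root ((X : (ZMod p)[X]) ^ (p - 2))
  simpa using this

lemma natCast_self_V : ((p : ℕ) : V p) = 0 := by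
  have := map_natCast (algebraMap (ZMod p) (V p)) p
  rw [ZMod.natCast_self, map_zero] at this
  exact this.symm

/-- The point `1 + y + ε` of the dual numbers over `V`. -/
noncomputable def s : (V p)[ε] := inl (1 + y p) + ε

lemma fst_s : fst (s p) = 1 + y p := by simp [s]

lemma snd_s : snd (s p) = 1 := by simp [s]

lemma natCast_self_dual : ((p : ℕ) : (V p)[ε]) = 0 := by
  ext
  · simp [natCast_self_V]
  · simp

lemma sum_pow_s (hp : 3 ≤ p) : ∑ i ∈ Finset.range p, (s p) ^ i = 0 := by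
  have hp' : Fact p.Prime := inferInstance
  -- polynomial identity over `ZMod p`
  have hpoly : ∑ i ∈ Finset.range p, (X : (ZMod p)[X]) ^ i = (X - 1) ^ (p - 1) := by
    have h1 : (X - 1 : (ZMod p)[X]) * ∑ i ∈ Finset.range p, (X : (ZMod p)[X]) ^ i
        = (X - 1) * (X - 1) ^ (p - 1) := by
      rw [mul_comm, geom_sum_mul, ← pow_succ', Nat.sub_add_cancel (by omega : 1 ≤ p),
        sub_pow_char, one_pow]
    exact mul_left_cancel₀ (X_sub_C_ne_zero (1 : ZMod p)) (by simpa using h1)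
  have := congrArg (aeval (s p)) hpoly
  simp only [map_sum, map_pow, aeval_X, map_sub, map_one] at this
  rw [this]
  have h2 : s p - 1 = inl (y p) + ε := by
    ext <;> simp [s]
  rw [h2]
  ext
  · simp only [fst_pow, fst_add, fst_inl, DualNumber.fst_eps, add_zero, fst_zero]
    rw [show p - 1 = (p - 2) + 1 by omega, pow_succ, y_pow, zero_mul]
  · simp only [snd_pow, fst_add, fst_inl, DualNumber.fst_eps, add_zero, snd_add, snd_inl,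
      DualNumber.snd_eps, zero_add, snd_zero]
    rw [show (p - 1).pred = p - 2 by rw [Nat.pred_eq_sub_one]; omega, y_pow]
    simp

section field

variable {p} {K : Type*} [Field K] [NumberField K] [IsCyclotomicExtension {p} ℚ K]
  {ζ : K} (hζ : IsPrimitiveRoot ζ p)

lemma minpoly_gen : minpoly ℤ hζ.integralPowerBasis.gen = cyclotomic p ℤ := by
  rw [hζ.integralPowerBasis_gen, ← RingOfIntegers.minpoly_coe,
    cyclotomic_eq_minpoly hζ (Fact.out : p.Prime).pos]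
  rfl

/-- The ring homomorphism `𝓞 K → V[ε]` sending `ζ` to `1 + y + ε`. -/
noncomputable def Θ (hp : 3 ≤ p) : 𝓞 K →ₐ[ℤ] (V p)[ε] :=
  hζ.integralPowerBasis.lift (s p) (by
    rw [minpoly_gen hζ, cyclotomic_prime, map_sum]
    simpa using sum_pow_s p hp)

lemma Θ_zeta (hp : 3 ≤ p) : Θ hζ hp hζ.toInteger = s p := by
  have := hζ.integralPowerBasis.lift_gen (s p) (by
    rw [minpoly_gen hζ, cyclotomic_prime, map_sum]
    simpa using sum_pow_s p hp)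
  have h2 : hζ.toInteger = hζ.integralPowerBasis.gen := hζ.integralPowerBasis_gen.symm
  rw [h2]
  exact this

/-- The "value" part of `Θ`. -/
noncomputable def A (hp : 3 ≤ p) : 𝓞 K →+* V p :=
  (fstHom ℤ (V p) (V p) : (V p)[ε] →+* V p).comp (Θ hζ hp : 𝓞 K →+* (V p)[ε])

/-- The "derivative" part of `Θ`. -/
noncomputable def B (hp : 3 ≤ p) : 𝓞 K →+ V p :=
  (sndHom (V p) (V p) : (V p)[ε] →ₗ[V p] V p).toAddMonoidHom.comp
    (Θ hζ hp : 𝓞 K →+* (V p)[ε]).toAddMonoidHom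

lemma A_apply (hp : 3 ≤ p) (x : 𝓞 K) : A hζ hp x = fst (Θ hζ hp x) := rfl

lemma B_apply (hp : 3 ≤ p) (x : 𝓞 K) : B hζ hp x = snd (Θ hζ hp x) := rfl

lemma B_mul (hp : 3 ≤ p) (x z : 𝓞 K) :
    B hζ hp (x * z) = A hζ hp x * B hζ hp z + B hζ hp x * A hζ hp z := by
  simp only [A_apply, B_apply, map_mul, DualNumber.snd_mul]

lemma B_one (hp : 3 ≤ p) : B hζ hp 1 = 0 := by
  simp [B_apply]

lemma B_intCast (hp : 3 ≤ p) (n : ℤ) : B hζ hp (n : 𝓞 K) = 0 := by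
  simp [B_apply]

lemma B_natCast_mul (hp : 3 ≤ p) (x : 𝓞 K) : B hζ hp ((p : 𝓞 K) * x) = 0 := by
  have : ((p : 𝓞 K) * x) = p • x := by simp
  rw [this, map_nsmul, nsmul_eq_mul, natCast_self_V, zero_mul]

lemma A_zeta (hp : 3 ≤ p) : A hζ hp hζ.toInteger = 1 + y p := by
  rw [A_apply, Θ_zeta, fst_s]

lemma B_zeta (hp : 3 ≤ p) : B hζ hp hζ.toInteger = 1 := by
  rw [B_apply, Θ_zeta, snd_s]

lemma B_pow (hp : 3 ≤ p) (x : 𝓞 K) (n : ℕ) :
    B hζ hp (x ^ n) = n * A hζ hp x ^ (n - 1) * B hζ hp x := by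
  simp only [A_apply, B_apply, map_pow, snd_pow, Nat.pred_eq_sub_one, smul_eq_mul, nsmul_eq_mul,
    mul_assoc]

/-- The logarithmic derivative on units. -/
noncomputable def dlog (hp : 3 ≤ p) : Additive (𝓞 K)ˣ →+ V p :=
  AddMonoidHom.mk' (fun u => B hζ hp ((Additive.toMul u : (𝓞 K)ˣ) : 𝓞 K) *
      A hζ hp (((Additive.toMul u)⁻¹ : (𝓞 K)ˣ) : 𝓞 K)) (by
    intro u v
    have hu : A hζ hp ((Additive.toMul u : (𝓞 K)ˣ) : 𝓞 K) *
        A hζ hp (((Additive.toMul u)⁻¹ : (𝓞 K)ˣ) : 𝓞 K) = 1 := by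
      rw [← map_mul, Units.mul_inv, map_one]
    have hv : A hζ hp ((Additive.toMul v : (𝓞 K)ˣ) : 𝓞 K) *
        A hζ hp (((Additive.toMul v)⁻¹ : (𝓞 K)ˣ) : 𝓞 K) = 1 := by
      rw [← map_mul, Units.mul_inv, map_one]
    simp only [toMul_add, Units.val_mul, mul_inv, B_mul, map_mul]
    linear_combination (B hζ hp ((Additive.toMul v : (𝓞 K)ˣ) : 𝓞 K) *
      A hζ hp (((Additive.toMul v)⁻¹ : (𝓞 K)ˣ) : 𝓞 K)) * hu +
      (B hζ hp ((Additive.toMul u : (𝓞 K)ˣ) : 𝓞 K) *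
      A hζ hp (((Additive.toMul u)⁻¹ : (𝓞 K)ˣ) : 𝓞 K)) * hv)

lemma dlog_apply (hp : 3 ≤ p) (u : (𝓞 K)ˣ) :
    dlog hζ hp (Additive.ofMul u) = B hζ hp (u : 𝓞 K) * A hζ hp ((u⁻¹ : (𝓞 K)ˣ) : 𝓞 K) := rfl

lemma dlog_eq_zero_of_dvd (hp : 3 ≤ p) (u : (𝓞 K)ˣ) (n : ℤ)
    (h : (p : 𝓞 K) ∣ (u : 𝓞 K) - n) : dlog hζ hp (Additive.ofMul u) = 0 := by
  obtain ⟨x, hx⟩ := h
  have : (u : 𝓞 K) = n + p * x := by rw [← hx]; ring
  rw [dlog_apply, this, map_add, B_intCast, B_natCast_mul, add_zero, zero_mul]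

end field

end construction

section criterion



variable {p : ℕ} [Fact p.Prime]

/-- The powers `y^j`, `j < p - 2`, are linearly independent over `𝔽_p`. -/
lemma eq_zero_of_sum_y_pow {d : ℕ} (hd : d ≤ p - 2) (c : Fin d → ZMod p)
    (h : ∑ j : Fin d, c j • (y p) ^ (j : ℕ) = 0) : c = 0 := by
  classical
  set f : (ZMod p)[X] := ∑ j : Fin d, C (c j) * X ^ (j : ℕ) with hf
  have hmk : AdjoinRoot.mk ((X : (ZMod p)[X]) ^ (p - 2)) f = 0 := by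
    rw [hf, map_sum, ← h]
    refine Finset.sum_congr rfl fun j _ => ?_
    rw [map_mul, map_pow, AdjoinRoot.mk_X, AdjoinRoot.mk_C, Algebra.smul_def]
    rfl
  rw [AdjoinRoot.mk_eq_zero] at hmk
  have hdeg : f.degree < ((X : (ZMod p)[X]) ^ (p - 2)).degree := by
    rw [degree_X_pow]
    refine (degree_sum_le _ _).trans_lt ?_
    rw [Finset.sup_lt_iff (by exact WithBot.bot_lt_coe _)]
    intro j _
    refine (degree_C_mul_X_pow_le _ _).trans_lt ?_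
    exact_mod_cast lt_of_lt_of_le j.2 hd
  have hf0 : f = 0 := eq_zero_of_dvd_of_degree_lt hmk hdeg
  funext k
  have := congrArg (fun g => g.coeff (k : ℕ)) hf0
  simp only [hf, finsetSum_coeff, coeff_C_mul, coeff_X_pow, coeff_zero] at this
  rw [Finset.sum_eq_single k] at this
  · simpa using this
  · intro j _ hjk
    rw [if_neg (fun h => hjk (Fin.ext h.symm)), mul_zero]
  · intro h; exact absurd (Finset.mem_univ k) h

section field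

variable {K : Type*} [Field K] [NumberField K] [IsCyclotomicExtension {p} ℚ K]
  {ζ : K} (hζ : IsPrimitiveRoot ζ p)

/-- Certificate-based criterion for linear independence of logarithmic derivatives. -/
theorem linearIndependent_dlog (hp : 3 ≤ p) {m d : ℕ} (hd : d ≤ p - 2) (w : Fin m → (𝓞 K)ˣ)
    (P : V p) (γ : Fin m → V p) (hγ : ∀ i, A hζ hp (w i : 𝓞 K) * γ i = P)
    (M : Matrix (Fin m) (Fin d) ℤ) (N : Matrix (Fin d) (Fin m) (ZMod p))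
    (hMN : M.map (Int.cast : ℤ → ZMod p) * N = 1)
    (hQ : ∀ i, B hζ hp (w i : 𝓞 K) * γ i = ∑ j : Fin d, ((M i j : ℤ) : V p) * (y p) ^ (j : ℕ)) :
    LinearIndependent (ZMod p) (fun i => dlog hζ hp (Additive.ofMul (w i))) := by
  classical
  rw [Fintype.linearIndependent_iff]
  intro c hc
  -- multiply by `P`
  have h1 : ∀ i, P * dlog hζ hp (Additive.ofMul (w i)) =
      ∑ j : Fin d, ((M i j : ℤ) : V p) * (y p) ^ (j : ℕ) := by
    intro i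
    rw [← hQ i, dlog_apply, ← hγ i]
    have : A hζ hp (w i : 𝓞 K) * A hζ hp (((w i)⁻¹ : (𝓞 K)ˣ) : 𝓞 K) = 1 := by
      rw [← map_mul, Units.mul_inv, map_one]
    linear_combination (B hζ hp (w i : 𝓞 K) * γ i) * this
  have h2 : ∑ i, c i • (P * dlog hζ hp (Additive.ofMul (w i))) = 0 := by
    have := congrArg (fun v => P * v) hc
    simp only [Finset.mul_sum, mul_zero] at this
    rw [← this]
    refine Finset.sum_congr rfl fun i _ => ?_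
    rw [mul_smul_comm]
  simp only [h1, Finset.smul_sum] at h2
  rw [Finset.sum_comm] at h2
  have h3 : ∑ j : Fin d, (∑ i, c i * ((M i j : ℤ) : ZMod p)) • (y p) ^ (j : ℕ) = 0 := by
    rw [← h2]
    refine Finset.sum_congr rfl fun j _ => ?_
    rw [Finset.sum_smul]
    refine Finset.sum_congr rfl fun i _ => ?_
    rw [mul_smul]
    congr 1
    rw [Algebra.smul_def]
    congr 1
  have h4 := eq_zero_of_sum_y_pow hd _ h3
  have h5 : Matrix.vecMul c (M.map (Int.cast : ℤ → ZMod p)) = 0 := by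
    funext j
    have := congrFun h4 j
    simpa [Matrix.vecMul, dotProduct] using this
  have h6 : Matrix.vecMul c (M.map (Int.cast : ℤ → ZMod p) * N) = 0 := by
    rw [← Matrix.vecMul_vecMul, h5, Matrix.zero_vecMul]
  rw [hMN, Matrix.vecMul_one] at h6
  intro i
  exact congrFun h6 i

end field

end criterion

section unitsAndCertificates



section field

variable {p : ℕ} [Fact p.Prime]
variable {K : Type*} [Field K] [NumberField K] [IsCyclotomicExtension {p} ℚ K]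
  {ζ : K} (hζ : IsPrimitiveRoot ζ p)

/-- `ζ` as a unit of `𝓞 K`. -/
noncomputable def zetaUnit : (𝓞 K)ˣ :=
  (hζ.toInteger_isPrimitiveRoot.isUnit (Fact.out : p.Prime).ne_zero).unit

omit [NumberField K] [IsCyclotomicExtension {p} ℚ K] in
lemma coe_zetaUnit : ((zetaUnit hζ : (𝓞 K)ˣ) : 𝓞 K) = hζ.toInteger := rfl

/-- The cyclotomic unit `1 + ζ + ⋯ + ζ^(a-1)`. -/
noncomputable def epsUnit (a : ℕ) (ha : a.Coprime p) : (𝓞 K)ˣ :=
  (hζ.toInteger_isPrimitiveRoot.geom_sum_isUnit (Fact.out : p.Prime).two_le ha).unit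

omit [NumberField K] [IsCyclotomicExtension {p} ℚ K] in
lemma coe_epsUnit (a : ℕ) (ha : a.Coprime p) :
    ((epsUnit hζ a ha : (𝓞 K)ˣ) : 𝓞 K) = ∑ i ∈ Finset.range a, hζ.toInteger ^ i := rfl

lemma A_epsUnit (hp : 3 ≤ p) (a : ℕ) (ha : a.Coprime p) :
    A hζ hp (epsUnit hζ a ha : 𝓞 K) = ∑ i ∈ Finset.range a, (1 + y p) ^ i := by
  rw [coe_epsUnit, map_sum]
  simp only [map_pow, A_zeta]

lemma B_epsUnit (hp : 3 ≤ p) (a : ℕ) (ha : a.Coprime p) :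
    B hζ hp (epsUnit hζ a ha : 𝓞 K) = ∑ i ∈ Finset.range a, (i : V p) * (1 + y p) ^ (i - 1) := by
  rw [coe_epsUnit, map_sum]
  simp only [B_pow, A_zeta, B_zeta, mul_one]

end field

section certificates

variable {K : Type*} [Field K] [NumberField K]

/-- The `2` test units for `p = 5`. -/
noncomputable def units_five [Fact (Nat.Prime 5)] [IsCyclotomicExtension {5} ℚ K] {ζ : K}
    (hζ : IsPrimitiveRoot ζ 5) : Fin 2 → (𝓞 K)ˣ :=
  ![zetaUnit hζ, epsUnit hζ 2 (by norm_num)]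

lemma cert_mul_five : (!![2, 1, 0; 1, 1, 0] : Matrix (Fin 2) (Fin 3) ℤ).map (Int.cast : ℤ → ZMod 5) *
    (!![1, 4; 4, 2; 0, 0] : Matrix (Fin 3) (Fin 2) (ZMod 5)) = 1 := by
  decide

theorem linearIndependent_five [Fact (Nat.Prime 5)] [IsCyclotomicExtension {5} ℚ K] {ζ : K}
    (hζ : IsPrimitiveRoot ζ 5) :
    LinearIndependent (ZMod 5) (fun i : Fin 2 => dlog hζ (by norm_num)
      (Additive.ofMul (units_five hζ i))) := by
  have hy : (y 5) ^ 3 = 0 := y_pow 5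
  have h0 : (5 : V 5) = 0 := by exact_mod_cast natCast_self_V 5
  refine linearIndependent_dlog hζ (by norm_num) (d := 3) (by norm_num) _
    (2 + 3 * y 5 + 1 * y 5 ^ 2)
    ![2 + 1 * y 5, 1 + 1 * y 5] ?_
    !![2, 1, 0; 1, 1, 0]
    !![1, 4; 4, 2; 0, 0]
    cert_mul_five ?_
  · intro i
    fin_cases i
    · simp [units_five, coe_zetaUnit, A_zeta] <;> ring
    · simp [units_five, A_epsUnit, Finset.sum_range_succ] <;> ring
  · intro i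
    fin_cases i
    · simp [units_five, coe_zetaUnit, B_zeta, Fin.sum_univ_succ] <;>
      linear_combination (0) * hy + (0) * h0
    · simp [units_five, B_epsUnit, Finset.sum_range_succ, Fin.sum_univ_succ] <;>
      linear_combination (0) * hy + (0) * h0

/-- The `3` test units for `p = 7`. -/
noncomputable def units_seven [Fact (Nat.Prime 7)] [IsCyclotomicExtension {7} ℚ K] {ζ : K}
    (hζ : IsPrimitiveRoot ζ 7) : Fin 3 → (𝓞 K)ˣ :=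
  ![zetaUnit hζ, epsUnit hζ 2 (by norm_num), epsUnit hζ 3 (by norm_num)]

lemma cert_mul_seven : (!![6, 2, 5, 1, 0; 3, 6, 4, 1, 0; 6, 6, 2, 2, 0] : Matrix (Fin 3) (Fin 5) ℤ).map (Int.cast : ℤ → ZMod 7) *
    (!![5, 4, 6; 0, 5, 1; 0, 0, 0; 6, 1, 4; 0, 0, 0] : Matrix (Fin 5) (Fin 3) (ZMod 7)) = 1 := by
  decide

theorem linearIndependent_seven [Fact (Nat.Prime 7)] [IsCyclotomicExtension {7} ℚ K] {ζ : K}
    (hζ : IsPrimitiveRoot ζ 7) :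
    LinearIndependent (ZMod 7) (fun i : Fin 3 => dlog hζ (by norm_num)
      (Additive.ofMul (units_seven hζ i))) := by
  have hy : (y 7) ^ 5 = 0 := y_pow 7
  have h0 : (7 : V 7) = 0 := by exact_mod_cast natCast_self_V 7
  refine linearIndependent_dlog hζ (by norm_num) (d := 5) (by norm_num) _
    (6 + 15 * y 7 + 14 * y 7 ^ 2 + 6 * y 7 ^ 3 + 1 * y 7 ^ 4)
    ![6 + 9 * y 7 + 5 * y 7 ^ 2 + 1 * y 7 ^ 3, 3 + 6 * y 7 + 4 * y 7 ^ 2 + 1 * y 7 ^ 3, 2 + 3 * y 7 + 1 * y 7 ^ 2] ?_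
    !![6, 2, 5, 1, 0; 3, 6, 4, 1, 0; 6, 6, 2, 2, 0]
    !![5, 4, 6; 0, 5, 1; 0, 0, 0; 6, 1, 4; 0, 0, 0]
    cert_mul_seven ?_
  · intro i
    fin_cases i
    · simp [units_seven, coe_zetaUnit, A_zeta] <;> ring
    · simp [units_seven, A_epsUnit, Finset.sum_range_succ] <;> ring
    · simp [units_seven, A_epsUnit, Finset.sum_range_succ] <;> ring
  · intro i
    fin_cases i
    · simp [units_seven, coe_zetaUnit, B_zeta, Fin.sum_univ_succ] <;>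
      linear_combination (0) * hy + (1 * y 7) * h0
    · simp [units_seven, B_epsUnit, Finset.sum_range_succ, Fin.sum_univ_succ] <;>
      linear_combination (0) * hy + (0) * h0
    · simp [units_seven, B_epsUnit, Finset.sum_range_succ, Fin.sum_univ_succ] <;>
      linear_combination (0) * hy + (1 * y 7 + 1 * y 7 ^ 2) * h0

/-- The `5` test units for `p = 11`. -/
noncomputable def units_eleven [Fact (Nat.Prime 11)] [IsCyclotomicExtension {11} ℚ K] {ζ : K}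
    (hζ : IsPrimitiveRoot ζ 11) : Fin 5 → (𝓞 K)ˣ :=
  ![zetaUnit hζ, epsUnit hζ 2 (by norm_num), epsUnit hζ 3 (by norm_num), epsUnit hζ 4 (by norm_num), epsUnit hζ 5 (by norm_num)]

lemma cert_mul_eleven : (!![10, 6, 9, 0, 0, 1, 10, 10, 2; 5, 0, 2, 9, 1, 0, 0, 10, 1; 10, 9, 6, 10, 5, 0, 10, 10, 1; 4, 5, 1, 4, 10, 0, 2, 6, 3; 9, 10, 9, 10, 0, 10, 8, 5, 5] : Matrix (Fin 5) (Fin 9) ℤ).map (Int.cast : ℤ → ZMod 11) *
    (!![0, 8, 1, 7, 0; 5, 3, 10, 8, 5; 0, 0, 0, 0, 0; 10, 9, 5, 3, 10; 0, 0, 0, 0, 0; 6, 0, 2, 10, 5; 0, 0, 0, 0, 0; 2, 10, 6, 7, 2; 0, 0, 0, 0, 0] : Matrix (Fin 9) (Fin 5) (ZMod 11)) = 1 := by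
  decide

theorem linearIndependent_eleven [Fact (Nat.Prime 11)] [IsCyclotomicExtension {11} ℚ K] {ζ : K}
    (hζ : IsPrimitiveRoot ζ 11) :
    LinearIndependent (ZMod 11) (fun i : Fin 5 => dlog hζ (by norm_num)
      (Additive.ofMul (units_eleven hζ i))) := by
  have hy : (y 11) ^ 9 = 0 := y_pow 11
  have h0 : (11 : V 11) = 0 := by exact_mod_cast natCast_self_V 11
  refine linearIndependent_dlog hζ (by norm_num) (d := 9) (by norm_num) _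
    (120 + 720 * y 11 + 2050 * y 11 ^ 2 + 3650 * y 11 ^ 3 + 4499 * y 11 ^ 4 + 4016 * y 11 ^ 5 + 2640 * y 11 ^ 6 + 1274 * y 11 ^ 7 + 441 * y 11 ^ 8 + 104 * y 11 ^ 9 + 15 * y 11 ^ 10 + 1 * y 11 ^ 11)
    ![120 + 600 * y 11 + 1450 * y 11 ^ 2 + 2200 * y 11 ^ 3 + 2299 * y 11 ^ 4 + 1717 * y 11 ^ 5 + 923 * y 11 ^ 6 + 351 * y 11 ^ 7 + 90 * y 11 ^ 8 + 14 * y 11 ^ 9 + 1 * y 11 ^ 10, 60 + 330 * y 11 + 860 * y 11 ^ 2 + 1395 * y 11 ^ 3 + 1552 * y 11 ^ 4 + 1232 * y 11 ^ 5 + 704 * y 11 ^ 6 + 285 * y 11 ^ 7 + 78 * y 11 ^ 8 + 13 * y 11 ^ 9 + 1 * y 11 ^ 10, 40 + 200 * y 11 + 470 * y 11 ^ 2 + 680 * y 11 ^ 3 + 663 * y 11 ^ 4 + 449 * y 11 ^ 5 + 210 * y 11 ^ 6 + 65 * y 11 ^ 7 + 12 * y 11 ^ 8 + 1 * y 11 ^ 9, 30 + 135 * y 11 + 280 * y 11 ^ 2 + 350 * y 11 ^ 3 + 286 * y 11 ^ 4 + 155 * y 11 ^ 5 + 54 * y 11 ^ 6 + 11 * y 11 ^ 7 + 1 * y 11 ^ 8, 24 + 96 * y 11 + 170 * y 11 ^ 2 + 174 * y 11 ^ 3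 + 111 * y 11 ^ 4 + 44 * y 11 ^ 5 + 10 * y 11 ^ 6 + 1 * y 11 ^ 7] ?_
    !![10, 6, 9, 0, 0, 1, 10, 10, 2; 5, 0, 2, 9, 1, 0, 0, 10, 1; 10, 9, 6, 10, 5, 0, 10, 10, 1; 4, 5, 1, 4, 10, 0, 2, 6, 3; 9, 10, 9, 10, 0, 10, 8, 5, 5]
    !![0, 8, 1, 7, 0; 5, 3, 10, 8, 5; 0, 0, 0, 0, 0; 10, 9, 5, 3, 10; 0, 0, 0, 0, 0; 6, 0, 2, 10, 5; 0, 0, 0, 0, 0; 2, 10, 6, 7, 2; 0, 0, 0, 0, 0]
    cert_mul_eleven ?_
  · intro i
    fin_cases i
    · simp [units_eleven, coe_zetaUnit, A_zeta] <;> ring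
    · simp [units_eleven, A_epsUnit, Finset.sum_range_succ] <;> ring
    · simp [units_eleven, A_epsUnit, Finset.sum_range_succ] <;> ring
    · simp [units_eleven, A_epsUnit, Finset.sum_range_succ] <;> ring
    · simp [units_eleven, A_epsUnit, Finset.sum_range_succ] <;> ring
  · intro i
    fin_cases i
    · simp [units_eleven, coe_zetaUnit, B_zeta, Fin.sum_univ_succ] <;>
      linear_combination (14 + 1 * y 11) * hy + (10 + 54 * y 11 + 131 * y 11 ^ 2 + 200 * y 11 ^ 3 + 209 * y 11 ^ 4 + 156 * y 11 ^ 5 + 83 * y 11 ^ 6 + 31 * y 11 ^ 7 + 8 * y 11 ^ 8) * h0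
    · simp [units_eleven, B_epsUnit, Finset.sum_range_succ, Fin.sum_univ_succ] <;>
      linear_combination (13 + 1 * y 11) * hy + (5 + 30 * y 11 + 78 * y 11 ^ 2 + 126 * y 11 ^ 3 + 141 * y 11 ^ 4 + 112 * y 11 ^ 5 + 64 * y 11 ^ 6 + 25 * y 11 ^ 7 + 7 * y 11 ^ 8) * h0
    · simp [units_eleven, B_epsUnit, Finset.sum_range_succ, Fin.sum_univ_succ] <;>
      linear_combination (27 + 2 * y 11) * hy + (10 + 61 * y 11 + 164 * y 11 ^ 2 + 270 * y 11 ^ 3 + 304 * y 11 ^ 4 + 243 * y 11 ^ 5 + 138 * y 11 ^ 6 + 55 * y 11 ^ 7 + 15 * y 11 ^ 8) * h0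
    · simp [units_eleven, B_epsUnit, Finset.sum_range_succ, Fin.sum_univ_succ] <;>
      linear_combination (41 + 3 * y 11) * hy + (16 + 95 * y 11 + 259 * y 11 ^ 2 + 431 * y 11 ^ 3 + 486 * y 11 ^ 4 + 388 * y 11 ^ 5 + 220 * y 11 ^ 6 + 87 * y 11 ^ 7 + 23 * y 11 ^ 8) * h0
    · simp [units_eleven, B_epsUnit, Finset.sum_range_succ, Fin.sum_univ_succ] <;>
      linear_combination (55 + 4 * y 11) * hy + (21 + 130 * y 11 + 361 * y 11 ^ 2 + 606 * y 11 ^ 3 + 684 * y 11 ^ 4 + 540 * y 11 ^ 5 + 303 * y 11 ^ 6 + 119 * y 11 ^ 7 + 31 * y 11 ^ 8) * h0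

/-- The `6` test units for `p = 13`. -/
noncomputable def units_thirteen [Fact (Nat.Prime 13)] [IsCyclotomicExtension {13} ℚ K] {ζ : K}
    (hζ : IsPrimitiveRoot ζ 13) : Fin 6 → (𝓞 K)ˣ :=
  ![zetaUnit hζ, epsUnit hζ 2 (by norm_num), epsUnit hζ 3 (by norm_num), epsUnit hζ 4 (by norm_num), epsUnit hζ 5 (by norm_num), epsUnit hζ 6 (by norm_num)]

lemma cert_mul_thirteen : (!![5, 5, 2, 0, 0, 0, 12, 2, 0, 8, 2; 9, 7, 0, 1, 6, 10, 1, 0, 1, 10, 0; 5, 4, 8, 6, 10, 1, 12, 1, 2, 7, 12; 1, 4, 11, 7, 3, 10, 8, 6, 1, 4, 11; 10, 7, 9, 11, 1, 11, 7, 3, 5, 1, 6; 6, 0, 2, 1, 6, 1, 6, 4, 11, 5, 3] : Matrix (Fin 6) (Fin 11) ℤ).map (Int.cast : ℤ → ZMod 13) *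
    (!![10, 12, 12, 10, 11, 11; 6, 1, 10, 5, 3, 1; 0, 0, 0, 0, 0, 0; 10, 5, 5, 6, 2, 6; 0, 0, 0, 0, 0, 0; 11, 9, 5, 12, 5, 4; 0, 0, 0, 0, 0, 0; 8, 3, 7, 7, 0, 10; 0, 0, 0, 0, 0, 0; 6, 9, 4, 10, 1, 3; 0, 0, 0, 0, 0, 0] : Matrix (Fin 11) (Fin 6) (ZMod 13)) = 1 := by
  decide

theorem linearIndependent_thirteen [Fact (Nat.Prime 13)] [IsCyclotomicExtension {13} ℚ K] {ζ : K}
    (hζ : IsPrimitiveRoot ζ 13) :
    LinearIndependent (ZMod 13) (fun i : Fin 6 => dlog hζ (by norm_num)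
      (Additive.ofMul (units_thirteen hζ i))) := by
  have hy : (y 13) ^ 11 = 0 := y_pow 13
  have h0 : (13 : V 13) = 0 := by exact_mod_cast natCast_self_V 13
  refine linearIndependent_dlog hζ (by norm_num) (d := 11) (by norm_num) _
    (720 + 6120 * y 13 + 25500 * y 13 ^ 2 + 68850 * y 13 ^ 3 + 134264 * y 13 ^ 4 + 199771 * y 13 ^ 5 + 233830 * y 13 ^ 6 + 218999 * y 13 ^ 7 + 165440 * y 13 ^ 8 + 100914 * y 13 ^ 9 + 49436 * y 13 ^ 10 + 19210 * y 13 ^ 11 + 5795 * y 13 ^ 12 + 1310 * y 13 ^ 13 + 209 * y 13 ^ 14 + 21 * y 13 ^ 15 + 1 * y 13 ^ 16)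
    ![720 + 5400 * y 13 + 20100 * y 13 ^ 2 + 48750 * y 13 ^ 3 + 85514 * y 13 ^ 4 + 114257 * y 13 ^ 5 + 119573 * y 13 ^ 6 + 99426 * y 13 ^ 7 + 66014 * y 13 ^ 8 + 34900 * y 13 ^ 9 + 14536 * y 13 ^ 10 + 4674 * y 13 ^ 11 + 1121 * y 13 ^ 12 + 189 * y 13 ^ 13 + 20 * y 13 ^ 14 + 1 * y 13 ^ 15, 360 + 2880 * y 13 + 11310 * y 13 ^ 2 + 28770 * y 13 ^ 3 + 52747 * y 13 ^ 4 + 73512 * y 13 ^ 5 + 80159 * y 13 ^ 6 + 69420 * y 13 ^ 7 + 48010 * y 13 ^ 8 + 26452 * y 13 ^ 9 + 11492 * y 13 ^ 10 + 3859 * y 13 ^ 11 + 968 * y 13 ^ 12 + 171 * y 13 ^ 13 + 19 * y 13 ^ 14 + 1 * y 13 ^ 15, 240 + 1800 * y 13 + 6620 * y 13 ^ 2 + 15730 * y 13 ^ 3 + 26818 * y 13 ^ 4 + 34529 * y 13 ^ 5 + 34475 * y 13 ^ 6 + 27015 * y 13 ^ 7 + 16640 * y 13 ^ 8 + 7993 * y 13 ^ 9 + 2939 * y 13 ^ 10 + 800 * y 13 ^ 11 + 152 * y 13 ^ 12 + 18 * y 13 ^ 13 + 1 * y 13 ^ 14, 180 + 1260 * y 13 + 4305 * y 13 ^ 2 + 9450 * y 13 ^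 3 + 14771 * y 13 ^ 4 + 17260 * y 13 ^ 5 + 15434 * y 13 ^ 6 + 10646 * y 13 ^ 7 + 5642 * y 13 ^ 8 + 2261 * y 13 ^ 9 + 664 * y 13 ^ 10 + 135 * y 13 ^ 11 + 17 * y 13 ^ 12 + 1 * y 13 ^ 13, 144 + 936 * y 13 + 2940 * y 13 ^ 2 + 5874 * y 13 ^ 3 + 8260 * y 13 ^ 4 + 8559 * y 13 ^ 5 + 6666 * y 13 ^ 6 + 3915 * y 13 ^ 7 + 1715 * y 13 ^ 8 + 545 * y 13 ^ 9 + 119 * y 13 ^ 10 + 16 * y 13 ^ 11 + 1 * y 13 ^ 12, 120 + 720 * y 13 + 2050 * y 13 ^ 2 + 3650 * y 13 ^ 3 + 4499 * y 13 ^ 4 + 4016 * y 13 ^ 5 + 2640 * y 13 ^ 6 + 1274 * y 13 ^ 7 + 441 * y 13 ^ 8 + 104 * y 13 ^ 9 + 15 * y 13 ^ 10 + 1 * y 13 ^ 11] ?_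
    !![5, 5, 2, 0, 0, 0, 12, 2, 0, 8, 2; 9, 7, 0, 1, 6, 10, 1, 0, 1, 10, 0; 5, 4, 8, 6, 10, 1, 12, 1, 2, 7, 12; 1, 4, 11, 7, 3, 10, 8, 6, 1, 4, 11; 10, 7, 9, 11, 1, 11, 7, 3, 5, 1, 6; 6, 0, 2, 1, 6, 1, 6, 4, 11, 5, 3]
    !![10, 12, 12, 10, 11, 11; 6, 1, 10, 5, 3, 1; 0, 0, 0, 0, 0, 0; 10, 5, 5, 6, 2, 6; 0, 0, 0, 0, 0, 0; 11, 9, 5, 12, 5, 4; 0, 0, 0, 0, 0, 0; 8, 3, 7, 7, 0, 10; 0, 0, 0, 0, 0, 0; 6, 9, 4, 10, 1, 3; 0, 0, 0, 0, 0, 0]
    cert_mul_thirteen ?_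
  · intro i
    fin_cases i
    · simp [units_thirteen, coe_zetaUnit, A_zeta] <;> ring
    · simp [units_thirteen, A_epsUnit, Finset.sum_range_succ] <;> ring
    · simp [units_thirteen, A_epsUnit, Finset.sum_range_succ] <;> ring
    · simp [units_thirteen, A_epsUnit, Finset.sum_range_succ] <;> ring
    · simp [units_thirteen, A_epsUnit, Finset.sum_range_succ] <;> ring
    · simp [units_thirteen, A_epsUnit, Finset.sum_range_succ] <;> ring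
  · intro i
    fin_cases i
    · simp [units_thirteen, coe_zetaUnit, B_zeta, Fin.sum_univ_succ] <;>
      linear_combination (4674 + 1121 * y 13 + 189 * y 13 ^ 2 + 20 * y 13 ^ 3 + 1 * y 13 ^ 4) * hy + (55 + 415 * y 13 + 1546 * y 13 ^ 2 + 3750 * y 13 ^ 3 + 6578 * y 13 ^ 4 + 8789 * y 13 ^ 5 + 9197 * y 13 ^ 6 + 7648 * y 13 ^ 7 + 5078 * y 13 ^ 8 + 2684 * y 13 ^ 9 + 1118 * y 13 ^ 10) * h0
    · simp [units_thirteen, B_epsUnit, Finset.sum_range_succ, Fin.sum_univ_succ] <;>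
      linear_combination (3859 + 968 * y 13 + 171 * y 13 ^ 2 + 19 * y 13 ^ 3 + 1 * y 13 ^ 4) * hy + (27 + 221 * y 13 + 870 * y 13 ^ 2 + 2213 * y 13 ^ 3 + 4057 * y 13 ^ 4 + 5654 * y 13 ^ 5 + 6166 * y 13 ^ 6 + 5340 * y 13 ^ 7 + 3693 * y 13 ^ 8 + 2034 * y 13 ^ 9 + 884 * y 13 ^ 10) * h0
    · simp [units_thirteen, B_epsUnit, Finset.sum_range_succ, Fin.sum_univ_succ] <;>
      linear_combination (8278 + 2056 * y 13 + 358 * y 13 ^ 2 + 39 * y 13 ^ 3 + 2 * y 13 ^ 4) * hy + (55 + 452 * y 13 + 1804 * y 13 ^ 2 + 4648 * y 13 ^ 3 + 8608 * y 13 ^ 4 + 12094 * y 13 ^ 5 + 13267 * y 13 ^ 6 + 11538 * y 13 ^ 7 + 7996 * y 13 ^ 8 + 4404 * y 13 ^ 9 + 1907 * y 13 ^ 10) * h0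
    · simp [units_thirteen, B_epsUnit, Finset.sum_range_succ, Fin.sum_univ_succ] <;>
      linear_combination (12905 + 3174 * y 13 + 547 * y 13 ^ 2 + 59 * y 13 ^ 3 + 3 * y 13 ^ 4) * hy + (83 + 692 * y 13 + 2803 * y 13 ^ 2 + 7301 * y 13 ^ 3 + 13626 * y 13 ^ 4 + 19236 * y 13 ^ 5 + 21153 * y 13 ^ 6 + 18394 * y 13 ^ 7 + 12717 * y 13 ^ 8 + 6972 * y 13 ^ 9 + 2999 * y 13 ^ 10) * h0
    · simp [units_thirteen, B_epsUnit, Finset.sum_range_succ, Fin.sum_univ_succ] <;>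
      linear_combination (17575 + 4295 * y 13 + 736 * y 13 ^ 2 + 79 * y 13 ^ 3 + 4 * y 13 ^ 4) * hy + (110 + 941 * y 13 + 3867 * y 13 ^ 2 + 10165 * y 13 ^ 3 + 19071 * y 13 ^ 4 + 26973 * y 13 ^ 5 + 29633 * y 13 ^ 6 + 25684 * y 13 ^ 7 + 17667 * y 13 ^ 8 + 9626 * y 13 ^ 9 + 4113 * y 13 ^ 10) * h0
    · simp [units_thirteen, B_epsUnit, Finset.sum_range_succ, Fin.sum_univ_succ] <;>
      linear_combination (22249 + 5416 * y 13 + 925 * y 13 ^ 2 + 99 * y 13 ^ 3 + 5 * y 13 ^ 4) * hy + (138 + 1200 * y 13 + 4996 * y 13 ^ 2 + 13233 * y 13 ^ 3 + 24893 * y 13 ^ 4 + 35173 * y 13 ^ 5 + 38503 * y 13 ^ 6 + 33204 * y 13 ^ 7 + 22711 * y 13 ^ 8 + 12305 * y 13 ^ 9 + 5231 * y 13 ^ 10) * h0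

end certificates

end unitsAndCertificates

end KummerDual

open KummerDual in
/-- **Kummer's lemma** for `p = 5, 7, 11, 13`: a unit of `ℤ[ζ_p]` congruent to a rational integer
modulo `p` is a `p`-th power. -/
theorem kummer_lemma {p : ℕ} [Fact p.Prime] (hp : p = 5 ∨ p = 7 ∨ p = 11 ∨ p = 13)
    {K : Type*} [Field K] [NumberField K] [IsCyclotomicExtension {p} ℚ K] (u : (𝓞 K)ˣ)
    (h : ∃ n : ℤ, (p : 𝓞 K) ∣ (u : 𝓞 K) - n) : ∃ v : (𝓞 K)ˣ, u = v ^ p := by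
  rcases hp with rfl | rfl | rfl | rfl
  · have hζ := IsCyclotomicExtension.zeta_spec 5 ℚ K
    exact kummer_of_dlog (by norm_num) (fun u => dlog hζ (by norm_num) (Additive.ofMul u))
      (fun u v => map_add _ _ _)
      (fun u ⟨n, hn⟩ => dlog_eq_zero_of_dvd hζ _ u n hn)
      (units_five hζ) (linearIndependent_five hζ) u h
  · have hζ := IsCyclotomicExtension.zeta_spec 7 ℚ K
    exact kummer_of_dlog (by norm_num) (fun u => dlog hζ (by norm_num) (Additive.ofMul u))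
      (fun u v => map_add _ _ _)
      (fun u ⟨n, hn⟩ => dlog_eq_zero_of_dvd hζ _ u n hn)
      (units_seven hζ) (linearIndependent_seven hζ) u h
  · have hζ := IsCyclotomicExtension.zeta_spec 11 ℚ K
    exact kummer_of_dlog (by norm_num) (fun u => dlog hζ (by norm_num) (Additive.ofMul u))
      (fun u v => map_add _ _ _)
      (fun u ⟨n, hn⟩ => dlog_eq_zero_of_dvd hζ _ u n hn)
      (units_eleven hζ) (linearIndependent_eleven hζ) u h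
  · have hζ := IsCyclotomicExtension.zeta_spec 13 ℚ K
    exact kummer_of_dlog (by norm_num) (fun u => dlog hζ (by norm_num) (Additive.ofMul u))
      (fun u v => map_add _ _ _)
      (fun u ⟨n, hn⟩ => dlog_eq_zero_of_dvd hζ _ u n hn)
      (units_thirteen hζ) (linearIndependent_thirteen hζ) u h

end Fermat.Agent.FLTSmall
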