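import Fermat.Agent.FLTSmall.Glue
import Fermat.Agent.FLTSmall.CaseII
import Fermat.Agent.FLTSmall.Kummer

/-!
# Fermat's Last Theorem for the exponents `5, 7, 11, 13`, given class number one

Assembly of Case I (`CaseI.lean`, Sophie Germain), Case II (`CaseII.lean`, Kummer's descent in
the PID `𝓞 ℚ(ζ_p)`) and Kummer's lemma (`Kummer.lean`).  The class number one statement for
`ℚ(ζ_p)` is a hypothesis here, so that each exponent can be finished independently.
-/

set_option autoImplicit false

open NumberField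

namespace Fermat.Agent.FLTSmall

/-- `CyclotomicField p ℚ` is a `p`-th cyclotomic extension of `ℚ` for the `ℚ`-algebra structure
that instance search finds on a field of characteristic zero. -/
theorem isCyclotomicExtension_cyclotomicField_rat (p : ℕ) :
    IsCyclotomicExtension {p} ℚ (CyclotomicField p ℚ) := by
  have h : @IsCyclotomicExtension {p} ℚ (CyclotomicField p ℚ) _ _
      (CyclotomicField.algebra p ℚ) := inferInstance
  have e : (DivisionRing.toRatAlgebra : Algebra ℚ (CyclotomicField p ℚ)) =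
      CyclotomicField.algebra p ℚ := Subsingleton.elim _ _
  rw [e]
  exact h

/-- Case II holds for `p ∈ {5, 7, 11, 13}` as soon as `𝓞 ℚ(ζ_p)` is a PID. -/
theorem caseIIStatement_of_pid {p : ℕ} (hp : p = 5 ∨ p = 7 ∨ p = 11 ∨ p = 13)
    (hPID : IsPrincipalIdealRing (𝓞 (CyclotomicField p ℚ))) : CaseIIStatement p := by
  have hpp : p.Prime := by rcases hp with rfl | rfl | rfl | rfl <;> norm_num
  have hp5 : 5 ≤ p := by rcases hp with rfl | rfl | rfl | rfl <;> norm_num
  have : Fact p.Prime := ⟨hpp⟩
  have := isCyclotomicExtension_cyclotomicField_rat p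
  intro x y z hxy hz hpz h
  exact caseII hp5 (K := CyclotomicField p ℚ) (fun u hu => kummer_lemma hp u hu) x y z hxy hz hpz h

/-- Fermat's Last Theorem for an exponent `p ∈ {5, 7, 11, 13}` such that `𝓞 ℚ(ζ_p)` is a PID. -/
theorem fermatLastTheoremFor_of_pid {p : ℕ} (hp : p = 5 ∨ p = 7 ∨ p = 11 ∨ p = 13)
    (hPID : IsPrincipalIdealRing (𝓞 (CyclotomicField p ℚ))) : FermatLastTheoremFor p := by
  have hpp : p.Prime := by rcases hp with rfl | rfl | rfl | rfl <;> norm_num
  rw [fermatLastTheoremFor_iff_int]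
  refine fermatLastTheoremWith_of_fermatLastTheoremWith_coprime ?_
  intro a b c ha hb hc hgcd h
  have hab : IsCoprime a b := by
    rw [Int.isCoprime_iff_gcd_eq_one]
    by_contra hne
    obtain ⟨r, hr, hra⟩ := Nat.exists_prime_and_dvd hne
    have hra' : (r : ℤ) ∣ a := Int.natCast_dvd.mpr (hra.trans (Nat.gcd_dvd_left _ _))
    have hrb' : (r : ℤ) ∣ b := Int.natCast_dvd.mpr (hra.trans (Nat.gcd_dvd_right _ _))
    have hrZ : Prime (r : ℤ) := Nat.prime_iff_prime_int.mp hr
    have hrc' : (r : ℤ) ∣ c := by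
      have h1 : (r : ℤ) ∣ c ^ p := by
        rw [← h]
        exact dvd_add (dvd_pow hra' hpp.ne_zero) (dvd_pow hrb' hpp.ne_zero)
      exact hrZ.dvd_of_dvd_pow h1
    have h2 : (r : ℤ) ∣ Finset.gcd {a, b, c} id := by
      apply Finset.dvd_gcd
      intro x hx
      simp only [Finset.mem_insert, Finset.mem_singleton] at hx
      rcases hx with rfl | rfl | rfl <;> assumption
    rw [hgcd] at h2
    exact hrZ.not_dvd_one h2
  exact no_solution_of_caseII hp (caseIIStatement_of_pid hp hPID) a b c ha hb hc hab h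

/-- There is no Frey package with exponent `p ∈ {5, 7, 11, 13}` such that `𝓞 ℚ(ζ_p)` is a
PID. -/
theorem no_freyPackage_of_pid (P : FreyPackage) {p : ℕ} (hPp : P.p = p)
    (hp : p = 5 ∨ p = 7 ∨ p = 11 ∨ p = 13)
    (hPID : IsPrincipalIdealRing (𝓞 (CyclotomicField p ℚ))) : False := by
  have hII : CaseIIStatement P.p := hPp ▸ caseIIStatement_of_pid hp hPID
  exact no_freyPackage_of_caseII P (hPp ▸ hp) hII

end Fermat.Agent.FLTSmall
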