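/-
FLT-small, package F1: principal ideal certificates in prime cyclotomic rings of integers.
Generic lemmas (no specific prime).
-/
import Mathlib

set_option autoImplicit false

namespace Fermat.Agent.FLTSmall

namespace PID

open NumberField Polynomial Ideal RingOfIntegers IsCyclotomicExtension.Rat NumberField.Ideal

variable (p : ℕ) [hp : Fact p.Prime] (K : Type*) [Field K] [NumberField K]
  [hK : IsCyclotomicExtension {p} ℚ K]

/-- The chosen generator of the ring of integers of the `p`-th cyclotomic field. -/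
noncomputable abbrev zetaInt : 𝓞 K := (IsCyclotomicExtension.zeta_spec p ℚ K).toInteger

theorem not_dvd_exponent_zetaInt (ℓ : ℕ) [Fact ℓ.Prime] : ¬ ℓ ∣ exponent (zetaInt p K) := by
  rw [exponent_eq_one_iff.mpr <| adjoin_singleton_eq_top (IsCyclotomicExtension.zeta_spec p ℚ K)]
  exact (Fact.out : ℓ.Prime).not_dvd_one

theorem minpoly_zetaInt : minpoly ℤ (zetaInt p K) = cyclotomic p ℤ := by
  rw [cyclotomic_eq_minpoly (IsCyclotomicExtension.zeta_spec p ℚ K) hp.out.pos,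
    ← (IsCyclotomicExtension.zeta_spec p ℚ K).coe_toInteger, ← RingOfIntegers.minpoly_coe]
  rfl

theorem sum_pow_zetaInt : ∑ i ∈ Finset.range p, (zetaInt p K) ^ i = 0 := by
  have h := minpoly.aeval ℤ (zetaInt p K)
  rw [minpoly_zetaInt, cyclotomic_prime, map_sum] at h
  simpa using h

/-- Certificate for a principal prime ideal over `ℓ`: a lift `Q` of a monic irreducible factor of
the cyclotomic polynomial mod `ℓ`, and `α` with `(α) = (ℓ, Q(ζ))`. -/
theorem exists_isPrincipal_of_cert (ℓ : ℕ) [Fact ℓ.Prime] (Q : ℤ[X])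
    (hQirr : Irreducible (Q.map (Int.castRingHom (ZMod ℓ))))
    (hQmonic : (Q.map (Int.castRingHom (ZMod ℓ))).Monic)
    (hQdvd : Q.map (Int.castRingHom (ZMod ℓ)) ∣ cyclotomic p (ZMod ℓ))
    (α β γ δ ε : 𝓞 K)
    (h1 : α * β = (ℓ : 𝓞 K)) (h2 : α * γ = aeval (zetaInt p K) Q)
    (h3 : α = aeval (zetaInt p K) Q * δ + (ℓ : 𝓞 K) * ε) :
    ∃ P ∈ primesOver (span {(ℓ : ℤ)}) (𝓞 K), Submodule.IsPrincipal P := by
  have hexp := not_dvd_exponent_zetaInt p K ℓ
  have hQ : Q.map (Int.castRingHom (ZMod ℓ)) ∈ monicFactorsMod (zetaInt p K) ℓ := by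
    rw [Multiset.mem_toFinset, Polynomial.mem_normalizedFactors_iff
      (map_monic_ne_zero (minpoly.monic (zetaInt p K).isIntegral))]
    refine ⟨hQirr, hQmonic, ?_⟩
    rw [minpoly_zetaInt, map_cyclotomic]
    exact hQdvd
  refine ⟨((primesOverSpanEquivMonicFactorsMod hexp).symm ⟨_, hQ⟩ : Ideal (𝓞 K)),
    ((primesOverSpanEquivMonicFactorsMod hexp).symm ⟨_, hQ⟩).prop, ?_⟩
  rw [primesOverSpanEquivMonicFactorsMod_symm_apply_eq_span hexp hQ]
  refine ⟨α, le_antisymm ?_ ?_⟩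
  · rw [Ideal.span_le]
    rintro x (rfl | rfl)
    · exact Ideal.mem_span_singleton.mpr ⟨β, h1.symm⟩
    · exact Ideal.mem_span_singleton.mpr ⟨γ, h2.symm⟩
  · change Ideal.span {α} ≤ _
    rw [Ideal.span_le, Set.singleton_subset_iff, SetLike.mem_coe, h3]
    refine Ideal.add_mem _ (Ideal.mul_mem_right _ _ (Ideal.subset_span ?_))
      (Ideal.mul_mem_right _ _ (Ideal.subset_span ?_))
    · simp
    · simp

/-- A prime `ℓ ≠ p` whose residue class mod `p` has no small power equal to `1` has large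
inertia degree: some (in fact any) prime above it has norm `> m`. -/
theorem exists_lt_pow_inertiaDeg (ℓ : ℕ) [Fact ℓ.Prime] (hℓp : ℓ ≠ p) (m k : ℕ)
    (h : ∀ j < k, 0 < j → (ℓ : ZMod p) ^ j ≠ 1) (hm : m < ℓ ^ k) :
    ∃ P ∈ primesOver (span {(ℓ : ℤ)}) (𝓞 K),
      m < ℓ ^ P.inertiaDeg ℤ ∨ Submodule.IsPrincipal P := by
  have hℓ : ℓ.Prime := Fact.out
  have hndvd : ¬ ℓ ∣ p := fun hdvd =>
    hℓp ((Nat.prime_dvd_prime_iff_eq hℓ hp.out).mp hdvd)
  obtain ⟨⟨P, hP1, hP2⟩⟩ := (span {(ℓ : ℤ)}).nonempty_primesOver (S := 𝓞 K)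
  refine ⟨P, ⟨hP1, hP2⟩, Or.inl ?_⟩
  rw [inertiaDeg_eq_of_not_dvd ℓ K P hndvd]
  have hne : (ℓ : ZMod p) ≠ 0 := by
    intro h0
    rw [ZMod.natCast_eq_zero_iff] at h0
    exact hℓp ((Nat.prime_dvd_prime_iff_eq hp.out hℓ).mp h0).symm
  have hpos : 0 < orderOf (ℓ : ZMod p) := by
    rw [orderOf_pos_iff, isOfFinOrder_iff_pow_eq_one]
    exact ⟨p - 1, Nat.sub_pos_of_lt hp.out.one_lt, ZMod.pow_card_sub_one_eq_one hne⟩
  have hk : k ≤ orderOf (ℓ : ZMod p) := by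
    by_contra hlt
    exact h _ (not_le.mp hlt) hpos (pow_orderOf_eq_one _)
  exact lt_of_lt_of_le hm (Nat.pow_le_pow_right hℓ.pos hk)

/-- The prime above `p` is principal. -/
theorem exists_isPrincipal_self (m : ℕ) :
    ∃ P ∈ primesOver (span {(p : ℤ)}) (𝓞 K),
      m < p ^ P.inertiaDeg ℤ ∨ Submodule.IsPrincipal P := by
  obtain ⟨⟨P, hP1, hP2⟩⟩ := (span {(p : ℤ)}).nonempty_primesOver (S := 𝓞 K)
  refine ⟨P, ⟨hP1, hP2⟩, Or.inr ?_⟩
  rw [eq_span_zeta_sub_one_of_liesOver' p K (IsCyclotomicExtension.zeta_spec p ℚ K) P]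
  exact ⟨⟨_, rfl⟩⟩

theorem minkowski_aux {a b c A C B : ℝ} (ha : 0 ≤ a) (hb : 0 ≤ b) (hc : 0 ≤ c) (haA : a ≤ A)
    (hcC : c ≤ C) (h : A * (b * C) < B) : a * (b * c) < B := by
  have h1 : b * c ≤ b * C := mul_le_mul_of_nonneg_left hcC hb
  have h2 : a * (b * c) ≤ A * (b * C) :=
    mul_le_mul haA h1 (mul_nonneg hb hc) (ha.trans haA)
  exact lt_of_le_of_lt h2 h

end PID

end Fermat.Agent.FLTSmall
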