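/-
FLT-small, package F1: the ring of integers of the 11-th cyclotomic field is a PID.
-/
import Fermat.Agent.FLTSmall.PIDBasic

set_option autoImplicit false

namespace Fermat.Agent.FLTSmall

namespace PID

open NumberField Polynomial Ideal Module InfinitePlace Nat Real IsCyclotomicExtension.Rat

theorem principal_11_23 (K : Type*) [Field K] [NumberField K]
    [IsCyclotomicExtension {11} ℚ K] :
    ∃ P ∈ primesOver (span {((23 : ℕ) : ℤ)}) (𝓞 K), Submodule.IsPrincipal P := by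
  have hroot : ∑ x ∈ Finset.range 11, (4 : ZMod 23) ^ x = 0 := by decide
  have : Fact (Nat.Prime 11) := ⟨by norm_num⟩
  have : Fact (Nat.Prime 23) := ⟨by norm_num⟩
  have hΦ : 1 + zetaInt 11 K + zetaInt 11 K ^ 2 + zetaInt 11 K ^ 3 + zetaInt 11 K ^ 4
    + zetaInt 11 K ^ 5 + zetaInt 11 K ^ 6 + zetaInt 11 K ^ 7 + zetaInt 11 K ^ 8
    + zetaInt 11 K ^ 9 + zetaInt 11 K ^ 10 = 0 := by
    have h := sum_pow_zetaInt 11 K
    simpa [Finset.sum_range_succ] using h
  set z := zetaInt 11 K with hz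
  refine exists_isPrincipal_of_cert 11 K 23 (X - C 4) ?_ ?_ ?_
    (1 + z + z ^ 3)
    (-2 - 14 * z - 17 * z ^ 2 - 12 * z ^ 3 - 5 * z ^ 4 - 9 * z ^ 5 - 10 * z ^ 6 - 16 * z ^ 7
      - 6 * z ^ 8 - 15 * z ^ 9)
    (1 + 3 * z + 3 * z ^ 2 + 2 * z ^ 3 + z ^ 4 + 2 * z ^ 5 + 2 * z ^ 6 + 3 * z ^ 7 + z ^ 8
      + 3 * z ^ 9)
    (17 + 4 * z + z ^ 2) (3) ?_ ?_ ?_
  · rw [Polynomial.map_sub, map_X, map_C]
    exact irreducible_X_sub_C _
  · rw [Polynomial.map_sub, map_X, map_C]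
    exact monic_X_sub_C _
  · rw [Polynomial.map_sub, map_X, map_C, dvd_iff_isRoot, IsRoot.def, cyclotomic_prime,
      eval_finsetSum]
    simp only [eval_pow, eval_X, eq_intCast, Int.cast_ofNat]
    exact hroot
  · rw [Nat.cast_ofNat]
    linear_combination (-25 + 9 * z - 15 * z ^ 2) * hΦ
  · rw [← hz, map_sub, aeval_X, aeval_C, eq_intCast, Int.cast_ofNat]
    linear_combination (5 - 2 * z + 3 * z ^ 2) * hΦ
  · rw [← hz, map_sub, aeval_X, aeval_C, eq_intCast, Int.cast_ofNat, Nat.cast_ofNat]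
    ring

theorem minkowski_eleven (K : Type*) [Field K] [NumberField K]
    [IsCyclotomicExtension {11} ℚ K] :
    ⌊(4 / π) ^ nrComplexPlaces K *
      ((finrank ℚ K)! / (finrank ℚ K) ^ (finrank ℚ K) * √|discr K|)⌋₊ ≤ 66 := by
  have : Fact (Nat.Prime 11) := ⟨by norm_num⟩
  rw [discr_prime 11 K, IsCyclotomicExtension.finrank (n := 11) K
    (cyclotomic.irreducible_rat (by simp)), nrComplexPlaces_eq_totient_div_two 11,
    totient_prime (by norm_num : Nat.Prime 11)]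
  have h6 : (11 - 1)! = 3628800 := by decide
  have hd : |(((-1 : ℤ) ^ ((11 - 1) / 2) * ((11 : ℕ) : ℤ) ^ (11 - 2) : ℤ) : ℝ)| =
      2357947691 := by
    norm_num
  rw [hd, h6]
  apply Nat.le_of_lt_succ
  rw [Nat.floor_lt (by positivity)]
  have hpi : (4 / π : ℝ) ≤ 4 / 3.14 := by
    apply div_le_div_of_nonneg_left (by norm_num) (by norm_num) pi_gt_d2.le
  have hpow : (4 / π : ℝ) ^ ((11 - 1) / 2) ≤ (4 / 3.14) ^ ((11 - 1) / 2) :=
    pow_le_pow_left₀ (by positivity) hpi _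
  have hsq : √(2357947691 : ℝ) ≤ 48560 := by
    rw [Real.sqrt_le_left (by norm_num)]
    norm_num
  refine minkowski_aux (by positivity) (by positivity) (by positivity) hpow hsq ?_
  norm_num

end PID

open NumberField in
/-- The ring of integers of the `11`-th cyclotomic field is a principal ideal domain. -/
theorem eleven_pid (K : Type*) [Field K] [NumberField K] [IsCyclotomicExtension {11} ℚ K] :
    IsPrincipalIdealRing (𝓞 K) := by
  have h2 : ∀ j < 7, 0 < j → ((2 : ℕ) : ZMod 11) ^ j ≠ 1 := by decide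
  have h3 : ∀ j < 4, 0 < j → ((3 : ℕ) : ZMod 11) ^ j ≠ 1 := by decide
  have h5 : ∀ j < 3, 0 < j → ((5 : ℕ) : ZMod 11) ^ j ≠ 1 := by decide
  have h7 : ∀ j < 3, 0 < j → ((7 : ℕ) : ZMod 11) ^ j ≠ 1 := by decide
  have h11 : Fact (Nat.Prime 11) := ⟨by norm_num⟩
  have : IsGalois ℚ K := IsCyclotomicExtension.isGalois {11} ℚ K
  apply RingOfIntegers.isPrincipalIdealRing_of_isPrincipal_of_lt_or_isPrincipal_of_mem_primesOver_of_mem_Icc
  intro ℓ hℓ hℓp
  have hB := PID.minkowski_eleven K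
  rw [Finset.mem_Icc] at hℓ
  have hℓB : ℓ ≤ 66 := hℓ.2.trans hB
  have hℓ1 : 1 ≤ ℓ := hℓ.1
  generalize ⌊(4 / Real.pi) ^ InfinitePlace.nrComplexPlaces K *
      ((Module.finrank ℚ K).factorial / (Module.finrank ℚ K) ^ (Module.finrank ℚ K) *
        √|discr K|)⌋₊ = m at hB ⊢
  have : Fact ℓ.Prime := ⟨hℓp⟩
  by_cases h11' : ℓ = 11
  · subst h11'
    exact PID.exists_isPrincipal_self 11 K m
  by_cases hmod : ℓ % 11 = 1
  · -- `ℓ ≡ 1 mod 11`: only `ℓ = 23`
    obtain ⟨q, hq⟩ : ∃ q, ℓ = 11 * q + 1 := ⟨ℓ / 11, by omega⟩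
    have hq5 : q ≤ 5 := by omega
    subst hq
    interval_cases q
    · exact absurd hℓp (by norm_num)
    · exact absurd hℓp (by norm_num)
    · obtain ⟨P, hP, hP'⟩ := PID.principal_11_23 K
      exact ⟨P, hP, Or.inr hP'⟩
    · exact absurd hℓp (by norm_num)
    · exact absurd hℓp (by norm_num)
    · exact absurd hℓp (by norm_num)
  by_cases hbig : 9 ≤ ℓ
  · -- inertia degree at least `2` and `ℓ ^ 2 > 66`
    refine PID.exists_lt_pow_inertiaDeg 11 K ℓ h11' m 2 ?_ ?_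
    · intro j hj hj0
      have hj1 : j = 1 := by omega
      subst hj1
      rw [pow_one]
      intro h1
      have h1' : ((ℓ : ℕ) : ZMod 11) = ((1 : ℕ) : ZMod 11) := by rw [h1, Nat.cast_one]
      rw [ZMod.natCast_eq_natCast_iff'] at h1'
      omega
    · nlinarith
  · interval_cases ℓ
    · exact absurd hℓp (by norm_num)
    · exact PID.exists_lt_pow_inertiaDeg 11 K 2 (by norm_num) m 7 h2 (by omega)
    · exact PID.exists_lt_pow_inertiaDeg 11 K 3 (by norm_num) m 4 h3 (by omega)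
    · exact absurd hℓp (by norm_num)
    · exact PID.exists_lt_pow_inertiaDeg 11 K 5 (by norm_num) m 3 h5 (by omega)
    · exact absurd hℓp (by norm_num)
    · exact PID.exists_lt_pow_inertiaDeg 11 K 7 (by norm_num) m 3 h7 (by omega)
    · exact absurd hℓp (by norm_num)

end Fermat.Agent.FLTSmall
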