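/-
FLT-small, package F1: the ring of integers of the 13-th cyclotomic field is a PID.
-/
import Fermat.Agent.FLTSmall.PIDBasic

set_option autoImplicit false

namespace Fermat.Agent.FLTSmall

namespace PID

open NumberField Polynomial Ideal Module InfinitePlace Nat Real IsCyclotomicExtension.Rat

theorem principal_13_3 (K : Type*) [Field K] [NumberField K]
    [IsCyclotomicExtension {13} ℚ K] :
    ∃ P ∈ primesOver (span {((3 : ℕ) : ℤ)}) (𝓞 K), Submodule.IsPrincipal P := by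
  have hnoroot : ∀ x : ZMod 3, x ^ 3 - x - 1 ≠ 0 := by decide
  have h3 : (3 : (ZMod 3)[X]) = 0 := by
    have h : (3 : ZMod 3) = 0 := by decide
    rw [← map_ofNat (C : ZMod 3 →+* (ZMod 3)[X]) 3, h, map_zero]
  have : Fact (Nat.Prime 13) := ⟨by norm_num⟩
  have : Fact (Nat.Prime 3) := ⟨by norm_num⟩
  have hΦ : 1 + zetaInt 13 K + zetaInt 13 K ^ 2 + zetaInt 13 K ^ 3 + zetaInt 13 K ^ 4
    + zetaInt 13 K ^ 5 + zetaInt 13 K ^ 6 + zetaInt 13 K ^ 7 + zetaInt 13 K ^ 8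
    + zetaInt 13 K ^ 9 + zetaInt 13 K ^ 10 + zetaInt 13 K ^ 11 + zetaInt 13 K ^ 12 = 0 := by
    have h := sum_pow_zetaInt 13 K
    simpa [Finset.sum_range_succ] using h
  set z := zetaInt 13 K with hz
  have hmap : (X ^ 3 - X - 1 : ℤ[X]).map (Int.castRingHom (ZMod 3)) = X ^ 3 - X - 1 := by
    simp only [Polynomial.map_sub, Polynomial.map_pow, map_X, Polynomial.map_one]
  have hdeg : (X ^ 3 - X - 1 : (ZMod 3)[X]).natDegree = 3 := by compute_degree!
  refine exists_isPrincipal_of_cert 13 K 3 (X ^ 3 - X - 1) ?_ ?_ ?_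
    (1 + z - z ^ 3)
    (-1 - z ^ 2 - z ^ 3 - 2 * z ^ 5 - z ^ 7 - 2 * z ^ 8 + z ^ 9 - 3 * z ^ 10)
    (-1) (-1) 0 ?_ ?_ ?_
  · rw [hmap]
    apply irreducible_of_degree_le_three_of_not_isRoot
    · rw [hdeg]; decide
    · intro x
      simp only [IsRoot.def, eval_sub, eval_pow, eval_X, eval_one]
      exact hnoroot x
  · rw [hmap]
    have h : (X ^ 3 - X - 1 : (ZMod 3)[X]) = X ^ (2 + 1) - (X + 1) := by ring
    rw [h]
    apply monic_X_pow_sub
    compute_degree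
    norm_num
  · rw [hmap, cyclotomic_prime]
    refine ⟨-1 - X ^ 2 - X ^ 3 + X ^ 5 - X ^ 7 + X ^ 8 + X ^ 9, ?_⟩
    simp only [Finset.sum_range_succ, Finset.sum_range_zero]
    linear_combination (X ^ 5 + X ^ 6 + X ^ 9 + X ^ 10) * h3
  · rw [Nat.cast_ofNat]
    linear_combination (-4 + 3 * z) * hΦ
  · rw [← hz]
    simp only [map_sub, map_pow, aeval_X, map_one]
    ring
  · rw [← hz]
    simp only [map_sub, map_pow, aeval_X, map_one]
    ring

theorem principal_13_53 (K : Type*) [Field K] [NumberField K]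
    [IsCyclotomicExtension {13} ℚ K] :
    ∃ P ∈ primesOver (span {((53 : ℕ) : ℤ)}) (𝓞 K), Submodule.IsPrincipal P := by
  have hroot : ∑ x ∈ Finset.range 13, (36 : ZMod 53) ^ x = 0 := by decide
  have : Fact (Nat.Prime 13) := ⟨by norm_num⟩
  have : Fact (Nat.Prime 53) := ⟨by norm_num⟩
  have hΦ : 1 + zetaInt 13 K + zetaInt 13 K ^ 2 + zetaInt 13 K ^ 3 + zetaInt 13 K ^ 4
    + zetaInt 13 K ^ 5 + zetaInt 13 K ^ 6 + zetaInt 13 K ^ 7 + zetaInt 13 K ^ 8
    + zetaInt 13 K ^ 9 + zetaInt 13 K ^ 10 + zetaInt 13 K ^ 11 + zetaInt 13 K ^ 12 = 0 := by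
    have h := sum_pow_zetaInt 13 K
    simpa [Finset.sum_range_succ] using h
  set z := zetaInt 13 K with hz
  refine exists_isPrincipal_of_cert 13 K 53 (X - C 36) ?_ ?_ ?_
    (1 + z + z ^ 3)
    (1 - 24 * z - 35 * z ^ 2 - 25 * z ^ 3 - 10 * z ^ 4 - 14 * z ^ 5 - 20 * z ^ 6 - 29 * z ^ 7
      - 16 * z ^ 8 - 23 * z ^ 9 - 7 * z ^ 10 - 36 * z ^ 11)
    (17 * z + 24 * z ^ 2 + 17 * z ^ 3 + 7 * z ^ 4 + 10 * z ^ 5 + 14 * z ^ 6 + 20 * z ^ 7
      + 11 * z ^ 8 + 16 * z ^ 9 + 5 * z ^ 10 + 25 * z ^ 11)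
    (1297 + 36 * z + z ^ 2) (881) ?_ ?_ ?_
  · rw [Polynomial.map_sub, map_X, map_C]
    exact irreducible_X_sub_C _
  · rw [Polynomial.map_sub, map_X, map_C]
    exact monic_X_sub_C _
  · rw [Polynomial.map_sub, map_X, map_C, dvd_iff_isRoot, IsRoot.def, cyclotomic_prime,
      eval_finsetSum]
    simp only [eval_pow, eval_X, eq_intCast, Int.cast_ofNat]
    exact hroot
  · rw [Nat.cast_ofNat]
    linear_combination (-52 + 29 * z - 36 * z ^ 2) * hΦ
  · rw [← hz, map_sub, aeval_X, aeval_C, eq_intCast, Int.cast_ofNat]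
    linear_combination (36 - 20 * z + 25 * z ^ 2) * hΦ
  · rw [← hz, map_sub, aeval_X, aeval_C, eq_intCast, Int.cast_ofNat, Nat.cast_ofNat]
    ring

theorem principal_13_79 (K : Type*) [Field K] [NumberField K]
    [IsCyclotomicExtension {13} ℚ K] :
    ∃ P ∈ primesOver (span {((79 : ℕ) : ℤ)}) (𝓞 K), Submodule.IsPrincipal P := by
  have hroot : ∑ x ∈ Finset.range 13, (64 : ZMod 79) ^ x = 0 := by decide
  have : Fact (Nat.Prime 13) := ⟨by norm_num⟩
  have : Fact (Nat.Prime 79) := ⟨by norm_num⟩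
  have hΦ : 1 + zetaInt 13 K + zetaInt 13 K ^ 2 + zetaInt 13 K ^ 3 + zetaInt 13 K ^ 4
    + zetaInt 13 K ^ 5 + zetaInt 13 K ^ 6 + zetaInt 13 K ^ 7 + zetaInt 13 K ^ 8
    + zetaInt 13 K ^ 9 + zetaInt 13 K ^ 10 + zetaInt 13 K ^ 11 + zetaInt 13 K ^ 12 = 0 := by
    have h := sum_pow_zetaInt 13 K
    simpa [Finset.sum_range_succ] using h
  set z := zetaInt 13 K with hz
  refine exists_isPrincipal_of_cert 13 K 79 (X - C 64) ?_ ?_ ?_
    (1 + z - z ^ 4)
    (24 - 25 * z - 27 * z ^ 2 + 10 * z ^ 3 - 3 * z ^ 4 - 39 * z ^ 5 - 5 * z ^ 6 - 2 * z ^ 7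
      - 18 * z ^ 8 - 38 * z ^ 9 + 16 * z ^ 10 - 35 * z ^ 11)
    (-19 + 21 * z + 22 * z ^ 2 - 8 * z ^ 3 + 3 * z ^ 4 + 32 * z ^ 5 + 4 * z ^ 6 + 2 * z ^ 7
      + 15 * z ^ 8 + 31 * z ^ 9 - 13 * z ^ 10 + 29 * z ^ 11)
    (-262143 - 4096 * z - 64 * z ^ 2 - z ^ 3) (-212369) ?_ ?_ ?_
  · rw [Polynomial.map_sub, map_X, map_C]
    exact irreducible_X_sub_C _
  · rw [Polynomial.map_sub, map_X, map_C]
    exact monic_X_sub_C _
  · rw [Polynomial.map_sub, map_X, map_C, dvd_iff_isRoot, IsRoot.def, cyclotomic_prime,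
      eval_finsetSum]
    simp only [eval_pow, eval_X, eq_intCast, Int.cast_ofNat]
    exact hroot
  · rw [Nat.cast_ofNat]
    linear_combination (-55 + 54 * z - 51 * z ^ 2 + 35 * z ^ 3) * hΦ
  · rw [← hz, map_sub, aeval_X, aeval_C, eq_intCast, Int.cast_ofNat]
    linear_combination (45 - 44 * z + 42 * z ^ 2 - 29 * z ^ 3) * hΦ
  · rw [← hz, map_sub, aeval_X, aeval_C, eq_intCast, Int.cast_ofNat, Nat.cast_ofNat]
    ring

theorem principal_13_131 (K : Type*) [Field K] [NumberField K]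
    [IsCyclotomicExtension {13} ℚ K] :
    ∃ P ∈ primesOver (span {((131 : ℕ) : ℤ)}) (𝓞 K), Submodule.IsPrincipal P := by
  have hroot : ∑ x ∈ Finset.range 13, (80 : ZMod 131) ^ x = 0 := by decide
  have : Fact (Nat.Prime 13) := ⟨by norm_num⟩
  have : Fact (Nat.Prime 131) := ⟨by norm_num⟩
  have hΦ : 1 + zetaInt 13 K + zetaInt 13 K ^ 2 + zetaInt 13 K ^ 3 + zetaInt 13 K ^ 4
    + zetaInt 13 K ^ 5 + zetaInt 13 K ^ 6 + zetaInt 13 K ^ 7 + zetaInt 13 K ^ 8
    + zetaInt 13 K ^ 9 + zetaInt 13 K ^ 10 + zetaInt 13 K ^ 11 + zetaInt 13 K ^ 12 = 0 := by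
    have h := sum_pow_zetaInt 13 K
    simpa [Finset.sum_range_succ] using h
  set z := zetaInt 13 K with hz
  refine exists_isPrincipal_of_cert 13 K 131 (X - C 80) ?_ ?_ ?_
    (1 - z - z ^ 3)
    (111 + 78 * z + 17 * z ^ 2 + 67 * z ^ 3 + 84 * z ^ 4 + 40 * z ^ 5 + 46 * z ^ 6 + 69 * z ^ 7
      + 48 * z ^ 8 + 33 * z ^ 9 + 41 * z ^ 10 + 28 * z ^ 11)
    (-68 - 47 * z - 10 * z ^ 2 - 41 * z ^ 3 - 51 * z ^ 4 - 24 * z ^ 5 - 28 * z ^ 6 - 42 * z ^ 7
      - 29 * z ^ 8 - 20 * z ^ 9 - 25 * z ^ 10 - 17 * z ^ 11)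
    (-6401 - 80 * z - z ^ 2) (-3909) ?_ ?_ ?_
  · rw [Polynomial.map_sub, map_X, map_C]
    exact irreducible_X_sub_C _
  · rw [Polynomial.map_sub, map_X, map_C]
    exact monic_X_sub_C _
  · rw [Polynomial.map_sub, map_X, map_C, dvd_iff_isRoot, IsRoot.def, cyclotomic_prime,
      eval_finsetSum]
    simp only [eval_pow, eval_X, eq_intCast, Int.cast_ofNat]
    exact hroot
  · rw [Nat.cast_ofNat]
    linear_combination (-20 - 13 * z - 28 * z ^ 2) * hΦ
  · rw [← hz, map_sub, aeval_X, aeval_C, eq_intCast, Int.cast_ofNat]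
    linear_combination (12 + 8 * z + 17 * z ^ 2) * hΦ
  · rw [← hz, map_sub, aeval_X, aeval_C, eq_intCast, Int.cast_ofNat, Nat.cast_ofNat]
    ring

theorem principal_13_157 (K : Type*) [Field K] [NumberField K]
    [IsCyclotomicExtension {13} ℚ K] :
    ∃ P ∈ primesOver (span {((157 : ℕ) : ℤ)}) (𝓞 K), Submodule.IsPrincipal P := by
  have hroot : ∑ x ∈ Finset.range 13, (75 : ZMod 157) ^ x = 0 := by decide
  have : Fact (Nat.Prime 13) := ⟨by norm_num⟩
  have : Fact (Nat.Prime 157) := ⟨by norm_num⟩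
  have hΦ : 1 + zetaInt 13 K + zetaInt 13 K ^ 2 + zetaInt 13 K ^ 3 + zetaInt 13 K ^ 4
    + zetaInt 13 K ^ 5 + zetaInt 13 K ^ 6 + zetaInt 13 K ^ 7 + zetaInt 13 K ^ 8
    + zetaInt 13 K ^ 9 + zetaInt 13 K ^ 10 + zetaInt 13 K ^ 11 + zetaInt 13 K ^ 12 = 0 := by
    have h := sum_pow_zetaInt 13 K
    simpa [Finset.sum_range_succ] using h
  set z := zetaInt 13 K with hz
  refine exists_isPrincipal_of_cert 13 K 157 (X - C 75) ?_ ?_ ?_
    (1 - z + z ^ 2 + z ^ 4)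
    (89 + 86 * z + 42 * z ^ 2 + 77 * z ^ 3 + 67 * z ^ 4 + 25 * z ^ 5 + 37 * z ^ 6 + 56 * z ^ 7
      + 73 * z ^ 8 + 113 * z ^ 9 + 124 * z ^ 10 + 76 * z ^ 11)
    (-43 - 41 * z - 20 * z ^ 2 - 37 * z ^ 3 - 32 * z ^ 4 - 12 * z ^ 5 - 18 * z ^ 6 - 27 * z ^ 7
      - 35 * z ^ 8 - 54 * z ^ 9 - 59 * z ^ 10 - 36 * z ^ 11)
    (421949 + 5626 * z + 75 * z ^ 2 + z ^ 3) (201568) ?_ ?_ ?_
  · rw [Polynomial.map_sub, map_X, map_C]
    exact irreducible_X_sub_C _
  · rw [Polynomial.map_sub, map_X, map_C]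
    exact monic_X_sub_C _
  · rw [Polynomial.map_sub, map_X, map_C, dvd_iff_isRoot, IsRoot.def, cyclotomic_prime,
      eval_finsetSum]
    simp only [eval_pow, eval_X, eq_intCast, Int.cast_ofNat]
    exact hroot
  · rw [Nat.cast_ofNat]
    linear_combination (-68 + 65 * z + 48 * z ^ 2 + 76 * z ^ 3) * hΦ
  · rw [← hz, map_sub, aeval_X, aeval_C, eq_intCast, Int.cast_ofNat]
    linear_combination (32 - 31 * z - 23 * z ^ 2 - 36 * z ^ 3) * hΦ
  · rw [← hz, map_sub, aeval_X, aeval_C, eq_intCast, Int.cast_ofNat, Nat.cast_ofNat]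
    ring

theorem minkowski_thirteen (K : Type*) [Field K] [NumberField K]
    [IsCyclotomicExtension {13} ℚ K] :
    ⌊(4 / π) ^ nrComplexPlaces K *
      ((finrank ℚ K)! / (finrank ℚ K) ^ (finrank ℚ K) * √|discr K|)⌋₊ ≤ 312 := by
  have : Fact (Nat.Prime 13) := ⟨by norm_num⟩
  rw [discr_prime 13 K, IsCyclotomicExtension.finrank (n := 13) K
    (cyclotomic.irreducible_rat (by simp)), nrComplexPlaces_eq_totient_div_two 13,
    totient_prime (by norm_num : Nat.Prime 13)]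
  have h6 : (13 - 1)! = 479001600 := by decide
  have hd : |(((-1 : ℤ) ^ ((13 - 1) / 2) * ((13 : ℕ) : ℤ) ^ (13 - 2) : ℤ) : ℝ)| =
      1792160394037 := by
    norm_num
  rw [hd, h6]
  apply Nat.le_of_lt_succ
  rw [Nat.floor_lt (by positivity)]
  have hpi : (4 / π : ℝ) ≤ 4 / 3.14 := by
    apply div_le_div_of_nonneg_left (by norm_num) (by norm_num) pi_gt_d2.le
  have hpow : (4 / π : ℝ) ^ ((13 - 1) / 2) ≤ (4 / 3.14) ^ ((13 - 1) / 2) :=
    pow_le_pow_left₀ (by positivity) hpi _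
  have hsq : √(1792160394037 : ℝ) ≤ 1338720 := by
    rw [Real.sqrt_le_left (by norm_num)]
    norm_num
  refine minkowski_aux (by positivity) (by positivity) (by positivity) hpow hsq ?_
  norm_num

end PID

open NumberField in
/-- The ring of integers of the `13`-th cyclotomic field is a principal ideal domain. -/
theorem thirteen_pid (K : Type*) [Field K] [NumberField K] [IsCyclotomicExtension {13} ℚ K] :
    IsPrincipalIdealRing (𝓞 K) := by
  have h2 : ∀ j < 9, 0 < j → ((2 : ℕ) : ZMod 13) ^ j ≠ 1 := by decide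
  have h5 : ∀ j < 4, 0 < j → ((5 : ℕ) : ZMod 13) ^ j ≠ 1 := by decide
  have h7 : ∀ j < 3, 0 < j → ((7 : ℕ) : ZMod 13) ^ j ≠ 1 := by decide
  have h11 : ∀ j < 3, 0 < j → ((11 : ℕ) : ZMod 13) ^ j ≠ 1 := by decide
  have h17 : ∀ j < 3, 0 < j → ((17 : ℕ) : ZMod 13) ^ j ≠ 1 := by decide
  have h13 : Fact (Nat.Prime 13) := ⟨by norm_num⟩
  have : IsGalois ℚ K := IsCyclotomicExtension.isGalois {13} ℚ K
  apply RingOfIntegers.isPrincipalIdealRing_of_isPrincipal_of_lt_or_isPrincipal_of_mem_primesOver_of_mem_Icc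
  intro ℓ hℓ hℓp
  have hB := PID.minkowski_thirteen K
  rw [Finset.mem_Icc] at hℓ
  have hℓB : ℓ ≤ 312 := hℓ.2.trans hB
  have hℓ1 : 1 ≤ ℓ := hℓ.1
  generalize ⌊(4 / Real.pi) ^ InfinitePlace.nrComplexPlaces K *
      ((Module.finrank ℚ K).factorial / (Module.finrank ℚ K) ^ (Module.finrank ℚ K) *
        √|discr K|)⌋₊ = m at hB ⊢
  have : Fact ℓ.Prime := ⟨hℓp⟩
  by_cases h13' : ℓ = 13
  · subst h13'
    exact PID.exists_isPrincipal_self 13 K m
  by_cases hmod : ℓ % 13 = 1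
  · -- `ℓ ≡ 1 mod 13`: only `ℓ = 53, 79, 131, 157`
    obtain ⟨q, hq⟩ : ∃ q, ℓ = 13 * q + 1 := ⟨ℓ / 13, by omega⟩
    have hq5 : q ≤ 23 := by omega
    subst hq
    interval_cases q
    · exact absurd hℓp (by norm_num)
    · exact absurd hℓp (by norm_num)
    · exact absurd hℓp (by norm_num)
    · exact absurd hℓp (by norm_num)
    · obtain ⟨P, hP, hP'⟩ := PID.principal_13_53 K
      exact ⟨P, hP, Or.inr hP'⟩
    · exact absurd hℓp (by norm_num)
    · obtain ⟨P, hP, hP'⟩ := PID.principal_13_79 K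
      exact ⟨P, hP, Or.inr hP'⟩
    · exact absurd hℓp (by norm_num)
    · exact absurd hℓp (by norm_num)
    · exact absurd hℓp (by norm_num)
    · obtain ⟨P, hP, hP'⟩ := PID.principal_13_131 K
      exact ⟨P, hP, Or.inr hP'⟩
    · exact absurd hℓp (by norm_num)
    · obtain ⟨P, hP, hP'⟩ := PID.principal_13_157 K
      exact ⟨P, hP, Or.inr hP'⟩
    · exact absurd hℓp (by norm_num)
    · exact absurd hℓp (by norm_num)
    · exact absurd hℓp (by norm_num)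
    · exact absurd hℓp (by norm_num)
    · exact absurd hℓp (by norm_num)
    · exact absurd hℓp (by norm_num)
    · exact absurd hℓp (by norm_num)
    · exact absurd hℓp (by norm_num)
    · exact absurd hℓp (by norm_num)
    · exact absurd hℓp (by norm_num)
    · exact absurd hℓp (by norm_num)
  by_cases hbig : 18 ≤ ℓ
  · -- inertia degree at least `2` and `ℓ ^ 2 > 312`
    refine PID.exists_lt_pow_inertiaDeg 13 K ℓ h13' m 2 ?_ ?_
    · intro j hj hj0
      have hj1 : j = 1 := by omega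
      subst hj1
      rw [pow_one]
      intro h1
      have h1' : ((ℓ : ℕ) : ZMod 13) = ((1 : ℕ) : ZMod 13) := by rw [h1, Nat.cast_one]
      rw [ZMod.natCast_eq_natCast_iff'] at h1'
      omega
    · nlinarith
  · interval_cases ℓ
    · exact absurd hℓp (by norm_num)
    · exact PID.exists_lt_pow_inertiaDeg 13 K 2 (by norm_num) m 9 h2 (by omega)
    · obtain ⟨P, hP, hP'⟩ := PID.principal_13_3 K
      exact ⟨P, hP, Or.inr hP'⟩
    · exact absurd hℓp (by norm_num)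
    · exact PID.exists_lt_pow_inertiaDeg 13 K 5 (by norm_num) m 4 h5 (by omega)
    · exact absurd hℓp (by norm_num)
    · exact PID.exists_lt_pow_inertiaDeg 13 K 7 (by norm_num) m 3 h7 (by omega)
    · exact absurd hℓp (by norm_num)
    · exact absurd hℓp (by norm_num)
    · exact absurd hℓp (by norm_num)
    · exact PID.exists_lt_pow_inertiaDeg 13 K 11 (by norm_num) m 3 h11 (by omega)
    · exact absurd hℓp (by norm_num)
    · exact absurd (rfl : (13 : ℕ) = 13) h13'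
    · exact absurd hℓp (by norm_num)
    · exact absurd hℓp (by norm_num)
    · exact absurd hℓp (by norm_num)
    · exact PID.exists_lt_pow_inertiaDeg 13 K 17 (by norm_num) m 3 h17 (by omega)

end Fermat.Agent.FLTSmall
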