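/-
FLT-small, package F1: the ring of integers of the 7-th cyclotomic field is a PID.
-/
import Fermat.Agent.FLTSmall.PIDBasic

set_option autoImplicit false

namespace Fermat.Agent.FLTSmall

namespace PID

open NumberField Polynomial Ideal Module InfinitePlace Nat Real IsCyclotomicExtension.Rat

theorem minkowski_seven (K : Type*) [Field K] [NumberField K] [IsCyclotomicExtension {7} ℚ K] :
    ⌊(4 / π) ^ nrComplexPlaces K *
      ((finrank ℚ K)! / (finrank ℚ K) ^ (finrank ℚ K) * √|discr K|)⌋₊ ≤ 4 := by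
  have : Fact (Nat.Prime 7) := ⟨by norm_num⟩
  rw [discr_prime 7 K, IsCyclotomicExtension.finrank (n := 7) K
    (cyclotomic.irreducible_rat (by simp)), nrComplexPlaces_eq_totient_div_two 7,
    totient_prime (by norm_num : Nat.Prime 7)]
  have h6 : (7 - 1)! = 720 := by decide
  have hd : |(((-1 : ℤ) ^ ((7 - 1) / 2) * ((7 : ℕ) : ℤ) ^ (7 - 2) : ℤ) : ℝ)| = 16807 := by
    norm_num
  rw [hd, h6]
  apply Nat.le_of_lt_succ
  rw [Nat.floor_lt (by positivity)]
  have hpi : (4 / π : ℝ) ≤ 4 / 3 := by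
    apply div_le_div_of_nonneg_left (by norm_num) (by norm_num) pi_gt_three.le
  have hpow : (4 / π : ℝ) ^ ((7 - 1) / 2) ≤ (4 / 3) ^ ((7 - 1) / 2) :=
    pow_le_pow_left₀ (by positivity) hpi _
  have hsq : √(16807 : ℝ) ≤ 130 := by
    rw [Real.sqrt_le_left (by norm_num)]
    norm_num
  refine minkowski_aux (by positivity) (by positivity) (by positivity) hpow hsq ?_
  norm_num

end PID

open NumberField in
/-- The ring of integers of the `7`-th cyclotomic field is a principal ideal domain. -/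
theorem seven_pid (K : Type*) [Field K] [NumberField K] [IsCyclotomicExtension {7} ℚ K] :
    IsPrincipalIdealRing (𝓞 K) := by
  have h2 : ∀ j < 3, 0 < j → ((2 : ℕ) : ZMod 7) ^ j ≠ 1 := by decide
  have h3 : ∀ j < 2, 0 < j → ((3 : ℕ) : ZMod 7) ^ j ≠ 1 := by decide
  have h7 : Fact (Nat.Prime 7) := ⟨by norm_num⟩
  have : IsGalois ℚ K := IsCyclotomicExtension.isGalois {7} ℚ K
  apply RingOfIntegers.isPrincipalIdealRing_of_isPrincipal_of_lt_or_isPrincipal_of_mem_primesOver_of_mem_Icc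
  intro ℓ hℓ hℓp
  have hB := PID.minkowski_seven K
  rw [Finset.mem_Icc] at hℓ
  have hℓ4 : ℓ ≤ 4 := hℓ.2.trans hB
  have hℓ1 : 1 ≤ ℓ := hℓ.1
  generalize ⌊(4 / Real.pi) ^ InfinitePlace.nrComplexPlaces K *
      ((Module.finrank ℚ K).factorial / (Module.finrank ℚ K) ^ (Module.finrank ℚ K) *
        √|discr K|)⌋₊ = m at hB ⊢
  interval_cases ℓ
  · exact absurd hℓp (by norm_num)
  · have : Fact (Nat.Prime 2) := ⟨hℓp⟩
    exact PID.exists_lt_pow_inertiaDeg 7 K 2 (by norm_num) m 3 h2 (by omega)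
  · have : Fact (Nat.Prime 3) := ⟨hℓp⟩
    exact PID.exists_lt_pow_inertiaDeg 7 K 3 (by norm_num) m 2 h3 (by omega)
  · exact absurd hℓp (by norm_num)

end Fermat.Agent.FLTSmall
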