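/-
FLT-small, package F1: the rings of integers of the `p`-th cyclotomic fields, `p = 5, 7, 11, 13`,
are principal ideal domains.
-/
import Fermat.Agent.FLTSmall.PID7
import Fermat.Agent.FLTSmall.PID11
import Fermat.Agent.FLTSmall.PID13

set_option autoImplicit false

namespace Fermat.Agent.FLTSmall

open NumberField in
/-- For `p ∈ {5, 7, 11, 13}` the ring of integers of a `p`-th cyclotomic extension of `ℚ` is a
principal ideal domain. -/
theorem isPrincipalIdealRing_cyclotomic {p : ℕ} (hp : p = 5 ∨ p = 7 ∨ p = 11 ∨ p = 13)
    (K : Type*) [Field K] [NumberField K] [IsCyclotomicExtension {p} ℚ K] :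
    IsPrincipalIdealRing (𝓞 K) := by
  rcases hp with rfl | rfl | rfl | rfl
  · exact IsCyclotomicExtension.Rat.five_pid K
  · exact seven_pid K
  · exact eleven_pid K
  · exact thirteen_pid K

end Fermat.Agent.FLTSmall
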