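import Fermat.Agent.FLTSmall.PIDCert

/-!
# A principal prime over `3` in `ℤ[ζ₁₃]`

`3` has order `3` modulo `13`, so the primes over `3` in `K = ℚ(ζ₁₃)` have norm `27`, below the
Minkowski bound.  `α = 1 + ζ - ζ³` divides `3` and generates one of them
(`exists_principal_over_three`), by the certificate criterion of `PIDCert.lean`:
`α` is killed by the ring homomorphism `𝓞 K → 𝔽₃[X]/(X³ - X - 1)`, `ζ ↦ X`, hence is not a
unit, and `ζ³ ≡ ζ + 1` modulo `α`.
-/

set_option autoImplicit false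

namespace Fermat.Agent.FLTSmall.PID13_3

open NumberField Polynomial Ideal

/-- The cubic `X³ - X - 1` over `𝔽₃`. -/
noncomputable def g3 : (ZMod 3)[X] := X ^ 3 - X - 1

lemma g3_natDegree : g3.natDegree = 3 := by
  unfold g3
  compute_degree!

lemma g3_degree_ne_zero : g3.degree ≠ 0 := by
  intro h
  have h1 := natDegree_eq_zero_iff_degree_le_zero.mpr h.le
  rw [g3_natDegree] at h1
  exact absurd h1 (by norm_num)

instance : Nontrivial (AdjoinRoot g3) := AdjoinRoot.nontrivial g3 g3_degree_ne_zero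

/-- The class of `X`. -/
noncomputable def r3 : AdjoinRoot g3 := AdjoinRoot.root g3

lemma r3_cube : r3 ^ 3 - r3 - 1 = 0 := by
  have h : AdjoinRoot.mk g3 g3 = 0 := AdjoinRoot.mk_self
  have h2 : AdjoinRoot.mk g3 (X ^ 3 - X - 1) = r3 ^ 3 - r3 - 1 := by
    simp [r3, AdjoinRoot.mk_X]
  rw [← h2]
  exact h

lemma three_eq_zero : (3 : AdjoinRoot g3) = 0 := by
  have h := map_natCast (algebraMap (ZMod 3) (AdjoinRoot g3)) 3
  have h3 : ((3 : ℕ) : ZMod 3) = 0 := by decide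
  rw [h3, map_zero] at h
  exact_mod_cast h.symm

lemma sum_r3 : ∑ i ∈ Finset.range 13, r3 ^ i = 0 := by
  simp only [Finset.sum_range_succ, Finset.sum_range_zero]
  linear_combination (20 + 15 * r3 + 11 * r3 ^ 2 + 8 * r3 ^ 3 + 6 * r3 ^ 4 + 4 * r3 ^ 5
    + 3 * r3 ^ 6 + 2 * r3 ^ 7 + r3 ^ 8 + r3 ^ 9) * r3_cube
    + (7 + 12 * r3 + 9 * r3 ^ 2) * three_eq_zero

lemma orderOf_three : orderOf (((3 : ℕ) : ZMod 13)) = 3 := by
  have h3 : (((3 : ℕ) : ZMod 13)) ^ 3 = 1 := by decide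
  have h4 : (((3 : ℕ) : ZMod 13)) ≠ 1 := by decide
  exact orderOf_eq_prime h3 h4

/-- **A principal prime over `3` in `ℤ[ζ₁₃]`.** -/
theorem exists_principal_over_three (K : Type*) [Field K] [NumberField K]
    [IsCyclotomicExtension {13} ℚ K] :
    ∃ P ∈ Ideal.primesOver (Ideal.span {((3 : ℕ) : ℤ)}) (𝓞 K), Submodule.IsPrincipal P := by
  have : Fact (Nat.Prime 13) := ⟨by norm_num⟩
  have hζ := IsCyclotomicExtension.zeta_spec 13 ℚ K
  set z : 𝓞 K := hζ.toInteger with hz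
  have hΦ : ∑ i ∈ Finset.range 13, z ^ i = 0 :=
    hζ.toInteger_isPrimitiveRoot.geom_sum_eq_zero (by norm_num)
  simp only [Finset.sum_range_succ, Finset.sum_range_zero] at hΦ
  -- the certificate
  let α : 𝓞 K := 1 + z - z ^ 3
  let β : 𝓞 K := -1 - z ^ 2 - z ^ 3 - 2 * z ^ 5 - z ^ 7 - 2 * z ^ 8 + z ^ 9 - 3 * z ^ 10
  have hαβ : α * β = ((3 : ℕ) : 𝓞 K) := by
    simp only [α, β]
    push_cast
    linear_combination (-4 + 3 * z) * hΦ
  -- `α` is not a unit
  have hα : ¬ IsUnit α := by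
    refine PIDCert.not_isUnit_of_map_eq_zero (PIDCert.liftHom hζ r3 sum_r3).toRingHom ?_
    have hzr : (PIDCert.liftHom hζ r3 sum_r3) z = r3 := PIDCert.liftHom_zeta hζ r3 sum_r3
    simp only [α, AlgHom.toRingHom_eq_coe, RingHom.coe_coe, map_sub, map_add, map_one, map_pow,
      hzr]
    linear_combination (-1 : AdjoinRoot g3) * r3_cube
  -- the monic cubic
  have hg : (X ^ 3 - X - 1 : ℤ[X]).Monic := by monicity!
  have hgdeg : (X ^ 3 - X - 1 : ℤ[X]).natDegree = orderOf (((3 : ℕ) : ZMod 13)) := by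
    have h1 : (X ^ 3 - X - 1 : ℤ[X]).natDegree = 3 := by compute_degree!
    rw [h1, orderOf_three]
  have hαg : α ∣ aeval z (X ^ 3 - X - 1 : ℤ[X]) := by
    refine ⟨-1, ?_⟩
    simp only [α, map_sub, map_pow, aeval_X, map_one]
    ring
  exact PIDCert.exists_principal_of_cert hζ 3 (by norm_num) α β hαβ hα _ hg hgdeg hαg

end Fermat.Agent.FLTSmall.PID13_3
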