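import Mathlib

/-!
# Principal primes of `ℤ[ζ_p]` from explicit certificates

`K = ℚ(ζ_p)`, `z = ζ_p ∈ 𝓞 K`, `l ≠ p` a rational prime, `f = orderOf (l : ZMod p)` its inertia
degree.  If `α ∣ l`, `α` is not a unit, and `α` divides `g(z)` for a monic `g ∈ ℤ[X]` of degree
`f`, then `(α)` is a prime ideal of `𝓞 K` over `l` (`exists_principal_of_cert`).  No norm is
computed: `𝓞 K / α` is spanned by `1, z, …, z^(f-1)` over `ℤ / l`, so it has at most `l ^ f`
elements, while a maximal ideal containing `α` has index exactly `l ^ f`.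
-/

set_option autoImplicit false

namespace Fermat.Agent.FLTSmall.PIDCert

open NumberField Polynomial Ideal

variable {p : ℕ} [hp : Fact p.Prime] {K : Type*} [Field K] [NumberField K]
  [IsCyclotomicExtension {p} ℚ K] {ζ : K} (hζ : IsPrimitiveRoot ζ p)

/-- Every element of `𝓞 K` is an integer polynomial in `ζ`. -/
lemma exists_aeval_eq (x : 𝓞 K) : ∃ h : ℤ[X], aeval hζ.toInteger h = x := by
  obtain ⟨h, hh⟩ := hζ.integralPowerBasis.exists_eq_aeval' x
  exact ⟨h, by rw [hh, hζ.integralPowerBasis_gen]⟩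

/-- The minimal polynomial of the generator of the integral power basis. -/
lemma minpoly_gen : minpoly ℤ hζ.integralPowerBasis.gen = cyclotomic p ℤ := by
  rw [hζ.integralPowerBasis_gen, ← RingOfIntegers.minpoly_coe,
    cyclotomic_eq_minpoly hζ (Fact.out : p.Prime).pos]
  rfl

/-- A ring homomorphism out of `𝓞 K` sending `ζ` to a given root of `1 + X + ⋯ + X^(p-1)`. -/
noncomputable def liftHom {R : Type*} [CommRing R] (r : R)
    (hr : ∑ i ∈ Finset.range p, r ^ i = 0) : 𝓞 K →ₐ[ℤ] R :=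
  hζ.integralPowerBasis.lift r (by
    rw [minpoly_gen hζ, cyclotomic_prime, map_sum]
    simpa using hr)

lemma liftHom_zeta {R : Type*} [CommRing R] (r : R)
    (hr : ∑ i ∈ Finset.range p, r ^ i = 0) : liftHom hζ r hr hζ.toInteger = r := by
  have := hζ.integralPowerBasis.lift_gen r (by
    rw [minpoly_gen hζ, cyclotomic_prime, map_sum]
    simpa using hr)
  have h2 : hζ.toInteger = hζ.integralPowerBasis.gen := hζ.integralPowerBasis_gen.symm
  rw [h2]
  exact this

omit [NumberField K] in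
/-- An element killed by a ring homomorphism to a nontrivial ring is not a unit. -/
lemma not_isUnit_of_map_eq_zero {R : Type*} [CommRing R] [Nontrivial R] (φ : 𝓞 K →+* R)
    {α : 𝓞 K} (h : φ α = 0) : ¬ IsUnit α := fun hu => (hu.map φ).ne_zero h

/-- If `α ∣ l` and `α ∣ g(z)` with `g` monic of degree `f > 0`, then `𝓞 K / α` has at most
`l ^ f` elements. -/
lemma card_quot_le (α : 𝓞 K) (l f : ℕ) [NeZero l] (hf : 0 < f) (hl : α ∣ (l : 𝓞 K))
    (g : ℤ[X]) (hg : g.Monic) (hdeg : g.natDegree = f) (hαg : α ∣ aeval hζ.toInteger g) :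
    Nat.card (𝓞 K ⧸ Ideal.span {α}) ≤ l ^ f := by
  classical
  let Φ : (Fin f → ZMod l) → (𝓞 K ⧸ Ideal.span {α}) := fun c =>
    Ideal.Quotient.mk _ (∑ i : Fin f, (((c i).val : ℤ) : 𝓞 K) * hζ.toInteger ^ (i : ℕ))
  have hsurj : Function.Surjective Φ := by
    intro y
    obtain ⟨x, rfl⟩ := Ideal.Quotient.mk_surjective y
    obtain ⟨h, rfl⟩ := exists_aeval_eq hζ x
    have hg1 : g ≠ 1 := by
      rintro rfl
      rw [natDegree_one] at hdeg
      omega
    have hrdeg : (h %ₘ g).natDegree < f := hdeg ▸ natDegree_modByMonic_lt h hg hg1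
    refine ⟨fun i => (((h %ₘ g).coeff i : ℤ) : ZMod l), ?_⟩
    have h1 : aeval hζ.toInteger h = aeval hζ.toInteger (h %ₘ g)
        + aeval hζ.toInteger g * aeval hζ.toInteger (h /ₘ g) := by
      conv_lhs => rw [← Polynomial.modByMonic_add_div h g]
      simp
    have h2 : aeval hζ.toInteger (h %ₘ g)
        = ∑ i : Fin f, (((h %ₘ g).coeff i : ℤ) : 𝓞 K) * hζ.toInteger ^ (i : ℕ) := by
      rw [aeval_eq_sum_range' hrdeg, Fin.sum_univ_eq_sum_range
        (fun i => (((h %ₘ g).coeff i : ℤ) : 𝓞 K) * hζ.toInteger ^ i) f]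
      refine Finset.sum_congr rfl fun i _ => ?_
      rw [zsmul_eq_mul]
    show Ideal.Quotient.mk _ _ = Ideal.Quotient.mk _ _
    rw [Ideal.Quotient.eq, Ideal.mem_span_singleton, h1, h2]
    have h3 : ∑ i : Fin f, ((((((h %ₘ g).coeff i : ℤ) : ZMod l).val : ℤ) : 𝓞 K))
          * hζ.toInteger ^ (i : ℕ)
        - (∑ i : Fin f, (((h %ₘ g).coeff i : ℤ) : 𝓞 K) * hζ.toInteger ^ (i : ℕ)
          + aeval hζ.toInteger g * aeval hζ.toInteger (h /ₘ g))
        = (l : 𝓞 K) * (∑ i : Fin f, ((-((h %ₘ g).coeff i / (l : ℤ)) : ℤ) : 𝓞 K)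
            * hζ.toInteger ^ (i : ℕ))
          - aeval hζ.toInteger g * aeval hζ.toInteger (h /ₘ g) := by
      rw [Finset.mul_sum, sub_add_eq_sub_sub, ← Finset.sum_sub_distrib]
      congr 1
      refine Finset.sum_congr rfl fun i _ => ?_
      rw [ZMod.val_intCast, Int.emod_def]
      push_cast
      ring
    rw [h3]
    exact dvd_sub (Dvd.dvd.mul_right hl _) (Dvd.dvd.mul_right hαg _)
  have hfin : Finite (Fin f → ZMod l) := inferInstance
  calc Nat.card (𝓞 K ⧸ Ideal.span {α}) ≤ Nat.card (Fin f → ZMod l) :=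
        Nat.card_le_card_of_surjective Φ hsurj
    _ = l ^ f := by
        rw [Nat.card_eq_fintype_card, Fintype.card_fun, ZMod.card, Fintype.card_fin]

/-- **Certificate criterion.** Let `l ≠ p` be a prime and `f = orderOf (l : ZMod p)`.  If
`α * β = l`, `α` is not a unit and `α ∣ g(ζ)` for a monic `g ∈ ℤ[X]` of degree `f`, then `(α)` is
a prime ideal of `𝓞 K` lying over `l`; in particular some prime over `l` is principal. -/
theorem exists_principal_of_cert (l : ℕ) [hl : Fact l.Prime] (hlp : l ≠ p) (α β : 𝓞 K)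
    (hαβ : α * β = (l : 𝓞 K)) (hα : ¬ IsUnit α) (g : ℤ[X]) (hg : g.Monic)
    (hdeg : g.natDegree = orderOf (l : ZMod p)) (hαg : α ∣ aeval hζ.toInteger g) :
    ∃ P ∈ Ideal.primesOver (Ideal.span {(l : ℤ)}) (𝓞 K), Submodule.IsPrincipal P := by
  classical
  have hl0 : (l : 𝓞 K) ≠ 0 := Nat.cast_ne_zero.mpr hl.out.ne_zero
  have hα0 : α ≠ 0 := by
    rintro rfl
    rw [zero_mul] at hαβ
    exact hl0 hαβ.symm
  have hne : Ideal.span {α} ≠ ⊤ := by rwa [Ne, Ideal.span_singleton_eq_top]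
  obtain ⟨P, hPmax, hle⟩ := Ideal.exists_le_maximal _ hne
  have hPprime : P.IsPrime := hPmax.isPrime
  have hαP : α ∈ P := hle (Ideal.mem_span_singleton_self α)
  have hlP : (l : 𝓞 K) ∈ P := hαβ ▸ P.mul_mem_right β hαP
  have hlies : P.LiesOver (Ideal.span {(l : ℤ)}) := by
    constructor
    have hmax : (Ideal.span {(l : ℤ)}).IsMaximal :=
      ((Ideal.span_singleton_prime (by exact_mod_cast hl.out.ne_zero)).mpr
        (Nat.prime_iff_prime_int.mp hl.out)).isMaximal
        (by simpa using hl.out.ne_zero)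
    refine hmax.eq_of_le (Ideal.IsPrime.under ℤ P).ne_top ?_
    rw [Ideal.span_singleton_le_iff_mem, Ideal.under_def, Ideal.mem_comap]
    simpa using hlP
  have hf : P.inertiaDeg ℤ = orderOf (l : ZMod p) :=
    IsCyclotomicExtension.Rat.inertiaDeg_eq_of_not_dvd l K P (m := p)
      (fun h => hlp ((Nat.prime_dvd_prime_iff_eq hl.out hp.out).mp h))
  have hN : Ideal.absNorm P = l ^ orderOf (l : ZMod p) := by
    rw [← hf]
    exact (Ideal.pow_inertiaDeg l P).symm
  have hfpos : 0 < orderOf (l : ZMod p) := by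
    rcases Nat.eq_zero_or_pos (orderOf (l : ZMod p)) with h0 | h0
    · rw [h0, pow_zero] at hN
      exact absurd (Ideal.absNorm_eq_one_iff.mp hN) hPprime.ne_top
    · exact h0
  have : NeZero l := ⟨hl.out.ne_zero⟩
  have hcard := card_quot_le hζ α l (orderOf (l : ZMod p)) hfpos ⟨β, hαβ.symm⟩ g hg hdeg hαg
  have hNα : Ideal.absNorm (Ideal.span {α}) ≤ l ^ orderOf (l : ZMod p) := by
    rwa [Ideal.absNorm_apply, Submodule.cardQuot_apply]
  have hdvd : Ideal.absNorm P ∣ Ideal.absNorm (Ideal.span {α}) :=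
    Ideal.absNorm_dvd_absNorm_of_le hle
  have hNα0 : Ideal.absNorm (Ideal.span {α}) ≠ 0 := by
    rw [Ne, Ideal.absNorm_eq_zero_iff, Ideal.span_singleton_eq_bot]
    exact hα0
  have hNeq : Ideal.absNorm (Ideal.span {α}) = Ideal.absNorm P :=
    le_antisymm (hN ▸ hNα) (Nat.le_of_dvd (Nat.pos_of_ne_zero hNα0) hdvd)
  have heq : Ideal.span {α} = P := by
    obtain ⟨J, hJ⟩ := Ideal.dvd_iff_le.mpr hle
    have h1 := congrArg Ideal.absNorm hJ
    rw [map_mul, hNeq] at h1
    have hP0 : Ideal.absNorm P ≠ 0 := hNeq ▸ hNα0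
    have hJ1 : Ideal.absNorm J = 1 := by
      have h2 : Ideal.absNorm P * 1 = Ideal.absNorm P * Ideal.absNorm J := by rw [mul_one]; exact h1
      exact (Nat.eq_of_mul_eq_mul_left (Nat.pos_of_ne_zero hP0) h2).symm
    rw [Ideal.absNorm_eq_one_iff] at hJ1
    rw [hJ, hJ1, Ideal.mul_top]
  exact ⟨P, ⟨hPprime, hlies⟩, ⟨α, heq.symm⟩⟩

end Fermat.Agent.FLTSmall.PIDCert
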